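import Fermat.Agent.LT.A2.H83.TorusSpec

/-!
# Row LT, tower A2, sub-leaf of A2.02: `GenC83` (helper83), OFF-MAIN

A quadratic extension `L / K` of number fields has an integral generator `ω`:
`ω² - t ω + n = 0`, `t, n ∈ 𝓞_K`, and `X² - t X + n` has no root in `K`.
-/

set_option autoImplicit false
set_option linter.unusedSectionVars false
set_option linter.unusedSimpArgs false
set_option linter.style.haveILetI false

open IsDedekindDomain NumberField AutomorphicForm Polynomial
open scoped MatrixGroups

noncomputable section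

namespace Fermat.Agent.LT.A2.H83

open Fermat.Agent.LT.H130 Fermat.Agent.LT.H556 Fermat.Agent.LT.A2

section

variable {K L : Type} [Field K] [NumberField K] [Field L] [NumberField L] [Algebra K L]

/-- A quadratic extension has an element outside the base field. -/
theorem exists_not_mem_range83 (h2 : Module.finrank K L = 2) :
    ∃ θ : L, θ ∉ (algebraMap K L).range := by
  by_contra hcon
  push Not at hcon
  have hsurj : Function.Surjective (algebraMap K L) := fun x => by
    obtain ⟨y, hy⟩ := hcon x
    exact ⟨y, hy⟩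
  have hbij : Function.Bijective (algebraMap K L) := ⟨(algebraMap K L).injective, hsurj⟩
  have h1 : Module.finrank K L = 1 := by
    have e : K ≃ₗ[K] L := LinearEquiv.ofBijective (Algebra.linearMap K L) hbij
    rw [← e.finrank_eq, Module.finrank_self]
  omega

/-- The same with an algebraic integer. -/
theorem exists_integral_not_mem_range83 (h2 : Module.finrank K L = 2) :
    ∃ ω : L, IsIntegral ℤ ω ∧ ω ∉ (algebraMap K L).range := by
  obtain ⟨θ, hθ⟩ := exists_not_mem_range83 h2
  have halg : IsAlgebraic ℤ θ := by
    have : IsAlgebraic ℚ θ := Algebra.IsAlgebraic.isAlgebraic θ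
    exact (IsFractionRing.isAlgebraic_iff ℤ ℚ L).mpr this
  obtain ⟨d, hd, hint⟩ := halg.exists_integral_multiple
  refine ⟨d • θ, hint, ?_⟩
  rintro ⟨y, hy⟩
  apply hθ
  have hdK : (d : K) ≠ 0 := Int.cast_ne_zero.mpr hd
  refine ⟨y / (d : K), ?_⟩
  rw [map_div₀, hy, zsmul_eq_mul, map_intCast]
  have hdL : (d : L) ≠ 0 := Int.cast_ne_zero.mpr hd
  field_simp

end

/-- **GEN** (helper83), VERBATIM. -/
theorem genC_h83 : GenC83 := by
  intro K L _ _ _ _ _ h2
  obtain ⟨ω, hω, hωK⟩ := exists_integral_not_mem_range83 h2
  haveI : FiniteDimensional K L := Module.finite_of_finrank_pos (by omega)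
  have hωintK : IsIntegral K ω := hω.tower_top
  set p : K[X] := minpoly K ω with hp
  have hmonic : p.Monic := minpoly.monic hωintK
  -- the degree is two
  have hdeg : p.natDegree = 2 := by
    have hle : p.natDegree ≤ 2 := h2 ▸ minpoly.natDegree_le ω
    have hpos : 0 < p.natDegree := minpoly.natDegree_pos hωintK
    have hne1 : p.natDegree ≠ 1 := fun h => hωK (minpoly.natDegree_eq_one_iff.mp h)
    omega
  -- integrality of the coefficients
  have hω𝓞 : IsIntegral (𝓞 K) ω := hω.tower_top
  have hpmap : p = (minpoly (𝓞 K) ω).map (algebraMap (𝓞 K) K) :=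
    minpoly.isIntegrallyClosed_eq_field_fractions' K hω𝓞
  have hcoeff : ∀ i : ℕ, IsIntegral ℤ (p.coeff i) := by
    intro i
    rw [hpmap, coeff_map]
    exact RingOfIntegers.isIntegral_coe _
  -- the relation
  have hexp : p = X ^ 2 + C (p.coeff 1) * X + C (p.coeff 0) := by
    have h := hmonic.as_sum
    rw [hdeg] at h
    rw [h]
    simp [Finset.sum_range_succ, coeff_X_pow, coeff_C_mul, coeff_X, coeff_C]
    ring
  have hrel : ω ^ 2 + algebraMap K L (p.coeff 1) * ω + algebraMap K L (p.coeff 0) = 0 := by
    have h0 : aeval ω p = 0 := minpoly.aeval K ω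
    rw [hexp] at h0
    simpa using h0
  refine ⟨-p.coeff 1, p.coeff 0, ω, ⟨(hcoeff 1).neg, hcoeff 0, hω, ?_, ?_⟩⟩
  · rw [map_neg]
    linear_combination hrel
  · intro x hx
    have hroot : p.IsRoot x := by
      rw [IsRoot.def, hexp]
      simp only [eval_add, eval_mul, eval_pow, eval_X, eval_C]
      linear_combination hx
    have h1 := degree_eq_one_of_irreducible_of_root (minpoly.irreducible hωintK) hroot
    have h2' : p.degree = 2 := by
      rw [degree_eq_natDegree hmonic.ne_zero, hdeg]
      rfl
    rw [h2'] at h1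
    exact absurd h1 (by decide)

end Fermat.Agent.LT.A2.H83

end
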