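import Fermat.Agent.LT.A2.H83.TorusSpec

/-!
# Row LT, tower A2, sub-leaf of A2.02: `InfTrivC83` (helper83), OFF-MAIN

A character of finite order of the idele group of a totally complex number field is trivial on the
ideles supported at the infinite places: every element of `ℂ` is an `n`-th power, so such an idele
is an `n`-th power in the idele group.  No topology is used.
-/

set_option autoImplicit false

open IsDedekindDomain NumberField AutomorphicForm
open scoped MatrixGroups

noncomputable section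

namespace Fermat.Agent.LT.A2.H83

open Fermat.Agent.LT.H130 Fermat.Agent.LT.H556 Fermat.Agent.LT.A2

/-- `n`-th roots in the completion at a complex place. -/
theorem exists_pow_eq_of_isComplex83 {L : Type} [Field L] [NumberField L] {u : InfinitePlace L}
    (hu : u.IsComplex) {n : ℕ} (hn : 0 < n) (x : u.Completion) : ∃ y : u.Completion, y ^ n = x := by
  obtain ⟨c, hc⟩ := IsAlgClosed.exists_pow_nat_eq
    (InfinitePlace.Completion.ringEquivComplexOfIsComplex hu x) hn
  refine ⟨(InfinitePlace.Completion.ringEquivComplexOfIsComplex hu).symm c, ?_⟩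
  apply (InfinitePlace.Completion.ringEquivComplexOfIsComplex hu).injective
  rw [map_pow, RingEquiv.apply_symm_apply, hc]

/-- An idele of a totally complex field whose finite components are `1` is an `n`-th power. -/
theorem exists_pow_eq_idele83 {L : Type} [Field L] [NumberField L]
    (hcx : ∀ u : InfinitePlace L, u.IsComplex) {n : ℕ} (hn : 0 < n) (z : (A0.Adl L)ˣ)
    (hz : ∀ w : HeightOneSpectrum (𝓞 L), (z : A0.Adl L).2 w = 1) :
    ∃ y : (A0.Adl L)ˣ, y ^ n = z := by
  choose y hy using fun u : InfinitePlace L =>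
    exists_pow_eq_of_isComplex83 (hcx u) hn ((z : A0.Adl L).1 u)
  have hz2 : (z : A0.Adl L).2 = 1 := FiniteAdeleRing.ext L (fun w => by
    rw [hz w]
    rfl)
  obtain ⟨Y, hY1, hY2⟩ : ∃ Y : A0.Adl L, Y.1 = y ∧ Y.2 = 1 := ⟨(y, 1), rfl, rfl⟩
  have hYn : Y ^ n = (z : A0.Adl L) := by
    have h1 : (Y ^ n).1 = (z : A0.Adl L).1 := by
      show Y.1 ^ n = _
      rw [hY1]
      funext u
      exact hy u
    have h2 : (Y ^ n).2 = (z : A0.Adl L).2 := by
      show Y.2 ^ n = _
      rw [hY2, one_pow, hz2]
    exact Prod.ext h1 h2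
  have hYu : IsUnit Y := by
    have h1 : IsUnit (Y ^ n) := hYn ▸ z.isUnit
    exact (isUnit_pow_iff hn.ne').mp h1
  obtain ⟨Yu, hYu'⟩ := hYu
  refine ⟨Yu, Units.ext ?_⟩
  rw [Units.val_pow_eq_pow_val, hYu', hYn]

/-- **INF-TRIV** (helper83), VERBATIM. -/
theorem infTrivC_h83 : InfTrivC83 := by
  intro L _ _ hcx χ hfin z hz
  obtain ⟨n, hn, hχn⟩ := hfin
  obtain ⟨y, rfl⟩ := exists_pow_eq_idele83 hcx hn z hz
  rw [map_pow, hχn]

end Fermat.Agent.LT.A2.H83

end
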