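import Fermat.Agent.LT.A2.H83.TorusSpec

/-!
# Row LT, tower A2, sub-leaf of A2.02: `NormOneEltC83` (helper83), OFF-MAIN

`L / K` quadratic, `w₁ ≠ w₂` over `v`.  The nontrivial automorphism `σ` swaps `w₁` and `w₂`
(the norm `x σ(x)` of `x ∈ w₁` lies in `v ⊆ w₂`; prime avoidance by hand), so there is no third
place over `v`; for `α ∈ w₁ ∖ (w₁² ∪ w₂)` the element `β = α / σ(α)` has norm `1`,
`w₁(β) = 1`, `w₂(β) = -1`.
-/

set_option autoImplicit false
set_option linter.unusedSectionVars false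
set_option linter.unusedSimpArgs false
set_option linter.style.haveILetI false

open IsDedekindDomain NumberField AutomorphicForm Polynomial
open scoped MatrixGroups

noncomputable section

namespace Fermat.Agent.LT.A2.H83

open Fermat.Agent.LT.H130 Fermat.Agent.LT.H556 Fermat.Agent.LT.A2

section Aux

/-- An element of `w ∖ w²` has valuation `exp (-1)`. -/
theorem intVal_eq_exp_neg_one83 {R : Type*} [CommRing R] [IsDedekindDomain R]
    (w : HeightOneSpectrum R) {x : R} (h1 : x ∈ w.asIdeal) (h2 : x ∉ w.asIdeal ^ 2) :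
    w.intValuation x = WithZero.exp (-1 : ℤ) := by
  have hx : x ≠ 0 := by
    rintro rfl
    exact h2 (zero_mem _)
  have hle : w.intValuation x ≤ WithZero.exp (-((1 : ℕ) : ℤ)) :=
    (w.intValuation_le_pow_iff_mem x 1).mpr (by simpa using h1)
  have hnle : ¬ w.intValuation x ≤ WithZero.exp (-((2 : ℕ) : ℤ)) := fun h =>
    h2 ((w.intValuation_le_pow_iff_mem x 2).mp h)
  rw [w.intValuation_if_neg hx] at hle hnle ⊢
  rw [WithZero.exp_le_exp] at hle hnle
  rw [WithZero.exp_inj]
  omega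

variable {K L : Type} [Field K] [NumberField K] [Field L] [NumberField L] [Algebra K L]

/-- The nontrivial automorphism of a quadratic extension. -/
theorem exists_conj83 (h2 : Module.finrank K L = 2) :
    ∃ σ : L ≃ₐ[K] L, (∀ x, σ (σ x) = x) ∧ ∀ x, σ x = x → ∃ y : K, algebraMap K L y = x := by
  haveI : FiniteDimensional K L := Module.finite_of_finrank_pos (by omega)
  haveI : Algebra.IsQuadraticExtension K L := ⟨h2⟩
  haveI : IsGalois K L := inferInstance
  have hcard : Nat.card (L ≃ₐ[K] L) = 2 := by rw [IsGalois.card_aut_eq_finrank, h2]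
  obtain ⟨σ, hσ, huniq⟩ := (Nat.card_eq_two_iff' (1 : L ≃ₐ[K] L)).mp hcard
  have hsq : σ * σ = 1 := by
    have := pow_card_eq_one' (G := L ≃ₐ[K] L) (x := σ)
    rwa [hcard, pow_two] at this
  refine ⟨σ, fun x => ?_, fun x hx => ?_⟩
  · have := congrArg (fun τ : L ≃ₐ[K] L => τ x) hsq
    simpa using this
  · have hmem : x ∈ Set.range (algebraMap K L) := by
      rw [IsGalois.mem_range_algebraMap_iff_fixed]
      intro f
      by_cases hf : f = 1
      · rw [hf]; rfl
      · rw [huniq f hf]; exact hx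
    exact hmem


/-- The restriction of `σ` to the ring of integers. -/
def conjInt83 (σ : L ≃ₐ[K] L) : 𝓞 L ≃+* 𝓞 L := RingOfIntegers.mapRingEquiv σ.toRingEquiv

theorem conjInt83_coe (σ : L ≃ₐ[K] L) (x : 𝓞 L) : ((conjInt83 σ x : 𝓞 L) : L) = σ (x : L) := rfl

theorem algebraMap_int_coe83 (y : 𝓞 K) :
    ((algebraMap (𝓞 K) (𝓞 L) y : 𝓞 L) : L) = algebraMap K L (y : K) := rfl

/-- The norm `x σ(x)` of an integer of `L` is an integer of `K`. -/
theorem norm_descends83 (σ : L ≃ₐ[K] L) (hinv : ∀ x, σ (σ x) = x)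
    (hfix : ∀ x, σ x = x → ∃ y : K, algebraMap K L y = x) (x : 𝓞 L) :
    ∃ y : 𝓞 K, algebraMap (𝓞 K) (𝓞 L) y = x * conjInt83 σ x := by
  have hfixed : σ ((x : L) * σ (x : L)) = (x : L) * σ (x : L) := by
    rw [map_mul, hinv, mul_comm]
  obtain ⟨y₀, hy₀⟩ := hfix _ hfixed
  have hint : IsIntegral ℤ y₀ := by
    have h1 : IsIntegral ℤ ((x * conjInt83 σ x : 𝓞 L) : L) := (x * conjInt83 σ x).2
    have h2 : ((x * conjInt83 σ x : 𝓞 L) : L) = algebraMap K L y₀ := by
      rw [hy₀]; rfl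
    rw [h2] at h1
    exact (isIntegral_algebraMap_iff (algebraMap K L).injective).mp h1
  refine ⟨⟨y₀, hint⟩, ?_⟩
  apply RingOfIntegers.ext
  exact hy₀

/-- **Transitivity, quadratic case.**  Two distinct primes over `v` are swapped by `σ`. -/
theorem swap_mem83 (σ : L ≃ₐ[K] L) (hinv : ∀ x, σ (σ x) = x)
    (hfix : ∀ x, σ x = x → ∃ y : K, algebraMap K L y = x)
    (v : HeightOneSpectrum (𝓞 K)) (P Q : HeightOneSpectrum (𝓞 L)) (hPQ : P ≠ Q)
    (hP : LiesOverPl K P v) (hQ : LiesOverPl K Q v) (x : 𝓞 L) (hx : x ∈ P.asIdeal) :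
    conjInt83 σ x ∈ Q.asIdeal := by
  have key : ∀ z : 𝓞 L, z ∈ P.asIdeal → z ∉ Q.asIdeal → conjInt83 σ z ∈ Q.asIdeal := by
    intro z hz hzQ
    obtain ⟨y, hy⟩ := norm_descends83 σ hinv hfix z
    have hyv : y ∈ v.asIdeal := by
      rw [← hP, Ideal.mem_comap, hy]
      exact Ideal.mul_mem_right _ _ hz
    have hyQ : algebraMap (𝓞 K) (𝓞 L) y ∈ Q.asIdeal := by
      rw [← hQ, Ideal.mem_comap] at hyv
      exact hyv
    rw [hy] at hyQ
    rcases Q.isPrime.mem_or_mem hyQ with h | h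
    · exact absurd h hzQ
    · exact h
  -- an element of `P` outside `Q`
  obtain ⟨x₀, hx₀P, hx₀Q⟩ : ∃ x₀ : 𝓞 L, x₀ ∈ P.asIdeal ∧ x₀ ∉ Q.asIdeal := by
    by_contra hcon
    push Not at hcon
    have hle : P.asIdeal ≤ Q.asIdeal := fun z hz => hcon z hz
    have hPmax : P.asIdeal.IsMaximal := P.isMaximal
    have := hPmax.eq_of_le Q.isPrime.ne_top hle
    exact hPQ (HeightOneSpectrum.ext this)
  by_cases hxQ : x ∈ Q.asIdeal
  · have h1 : conjInt83 σ (x + x₀) ∈ Q.asIdeal := by
      apply key _ (Ideal.add_mem _ hx hx₀P)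
      intro h
      exact hx₀Q ((Ideal.add_mem_iff_right _ hxQ).mp h)
    have h2 : conjInt83 σ x₀ ∈ Q.asIdeal := key _ hx₀P hx₀Q
    rw [map_add] at h1
    exact (Ideal.add_mem_iff_left _ h2).mp h1
  · exact key _ hx hxQ

/-- `P = σ⁻¹ Q`. -/
theorem eq_comap_conj83 (σ : L ≃ₐ[K] L) (hinv : ∀ x, σ (σ x) = x)
    (hfix : ∀ x, σ x = x → ∃ y : K, algebraMap K L y = x)
    (v : HeightOneSpectrum (𝓞 K)) (P Q : HeightOneSpectrum (𝓞 L)) (hPQ : P ≠ Q)
    (hP : LiesOverPl K P v) (hQ : LiesOverPl K Q v) :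
    P.asIdeal = Q.asIdeal.comap (conjInt83 σ : 𝓞 L →+* 𝓞 L) := by
  have hPmax : P.asIdeal.IsMaximal := P.isMaximal
  haveI := Q.isPrime
  apply hPmax.eq_of_le
  · exact (Ideal.comap_isPrime (conjInt83 σ : 𝓞 L →+* 𝓞 L) Q.asIdeal).ne_top
  · intro x hx
    rw [Ideal.mem_comap]
    exact swap_mem83 σ hinv hfix v P Q hPQ hP hQ x hx

/-- The same for all powers. -/
theorem pow_eq_comap_conj83 (σ : L ≃ₐ[K] L) (hinv : ∀ x, σ (σ x) = x)
    (hfix : ∀ x, σ x = x → ∃ y : K, algebraMap K L y = x)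
    (v : HeightOneSpectrum (𝓞 K)) (P Q : HeightOneSpectrum (𝓞 L)) (hPQ : P ≠ Q)
    (hP : LiesOverPl K P v) (hQ : LiesOverPl K Q v) (k : ℕ) :
    P.asIdeal ^ k = (Q.asIdeal ^ k).comap (conjInt83 σ : 𝓞 L →+* 𝓞 L) := by
  rw [eq_comap_conj83 σ hinv hfix v P Q hPQ hP hQ]
  have h1 : ∀ I : Ideal (𝓞 L), I.comap (conjInt83 σ : 𝓞 L →+* 𝓞 L)
      = I.map ((conjInt83 σ).symm : 𝓞 L →+* 𝓞 L) := by
    intro I
    exact (Ideal.map_symm (conjInt83 σ)).symm
  rw [h1, h1, Ideal.map_pow]


/-- An element of `P ∖ P²` outside `Q`. -/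
theorem exists_crt_elt83 {R : Type*} [CommRing R] [IsDedekindDomain R]
    (P Q : HeightOneSpectrum R) (hPQ : P ≠ Q) :
    ∃ α : R, α ∈ P.asIdeal ∧ α ∉ P.asIdeal ^ 2 ∧ α ∉ Q.asIdeal := by
  obtain ⟨π, hπ⟩ := P.intValuation_exists_uniformizer
  have hπ1 : π ∈ P.asIdeal := by
    rw [← P.intValuation_lt_one_iff_mem, hπ, ← WithZero.exp_zero, WithZero.exp_lt_exp]
    omega
  have hπ2 : π ∉ P.asIdeal ^ 2 := by
    rw [← P.intValuation_le_pow_iff_mem, hπ, WithZero.exp_le_exp]
    omega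
  have hcop : IsCoprime (P.asIdeal ^ 2) Q.asIdeal := by
    have h0 : IsCoprime P.asIdeal Q.asIdeal := by
      rw [Ideal.isCoprime_iff_sup_eq]
      exact Ideal.IsMaximal.coprime_of_ne P.isMaximal Q.isMaximal
        (fun h => hPQ (HeightOneSpectrum.ext h))
    exact h0.pow_left
  obtain ⟨e₁, he₁, e₂, he₂, hsum⟩ := Ideal.isCoprime_iff_exists.mp hcop
  have he₁P : e₁ ∈ P.asIdeal := Ideal.pow_le_self (by norm_num) he₁
  refine ⟨π * e₂ + e₁, ?_, ?_, ?_⟩
  · exact Ideal.add_mem _ (Ideal.mul_mem_right _ _ hπ1) he₁P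
  · intro h
    apply hπ2
    have h1 : π * e₂ ∈ P.asIdeal ^ 2 := (Ideal.add_mem_iff_left _ he₁).mp h
    have h2 : π = π * e₂ + π * e₁ := by
      rw [← mul_add, add_comm e₂ e₁, hsum, mul_one]
    rw [h2]
    exact Ideal.add_mem _ h1 (Ideal.mul_mem_left _ _ he₁)
  · intro h
    have h1 : e₁ ∈ Q.asIdeal := (Ideal.add_mem_iff_right _ (Ideal.mul_mem_left _ _ he₂)).mp h
    have h2 : (1 : R) ∈ Q.asIdeal := by
      rw [← hsum]
      exact Ideal.add_mem _ h1 he₂
    exact Q.isPrime.ne_top ((Ideal.eq_top_iff_one _).mpr h2)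

/-- `1, ω` span `L`. -/
theorem exists_coords83 (t n : K) (ω : L) (h2 : Module.finrank K L = 2)
    (hgen : IsGen83 K L t n ω) (x : L) : ∃ a b : K, elt83 ω a b = x := by
  haveI : FiniteDimensional K L := Module.finite_of_finrank_pos (by omega)
  let f : (K × K) →ₗ[K] L := (Algebra.linearMap K L).coprod (LinearMap.toSpanSingleton K L ω)
  have hf : ∀ p : K × K, f p = algebraMap K L p.1 + algebraMap K L p.2 * ω := by
    intro p
    simp [f, LinearMap.coprod_apply, Algebra.smul_def]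
  have hinj : Function.Injective f := by
    rw [← LinearMap.ker_eq_bot, LinearMap.ker_eq_bot']
    rintro ⟨a, b⟩ h
    rw [hf] at h
    simp only at h
    by_cases hb : b = 0
    · subst hb
      simp only [map_zero, zero_mul, add_zero] at h
      have ha : a = 0 := (map_eq_zero (algebraMap K L)).mp h
      rw [ha]
      rfl
    · exfalso
      have hbL : algebraMap K L b ≠ 0 := fun hh => hb ((map_eq_zero (algebraMap K L)).mp hh)
      have hω : ω = algebraMap K L (-a / b) := by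
        rw [map_div₀, map_neg, eq_div_iff hbL]
        linear_combination h
      apply hgen.irred (-a / b)
      apply (algebraMap K L).injective
      rw [map_zero, map_add, map_sub, map_mul, map_pow, ← hω]
      exact hgen.rel
  have hfr : Module.finrank K (K × K) = Module.finrank K L := by
    rw [Module.finrank_prod, Module.finrank_self, h2]
  have hsurj : Function.Surjective f :=
    (LinearMap.injective_iff_surjective_of_finrank_eq_finrank hfr).mp hinj
  obtain ⟨⟨a, b⟩, hab⟩ := hsurj x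
  refine ⟨a, b, ?_⟩
  rw [← hab, hf]
  rfl

/-- `σ ω = t - ω`. -/
theorem conj_gen83 (σ : L ≃ₐ[K] L)
    (hfix : ∀ x, σ x = x → ∃ y : K, algebraMap K L y = x)
    (t n : K) (ω : L) (hgen : IsGen83 K L t n ω) : σ ω = algebraMap K L t - ω := by
  have hrel := hgen.rel
  have hrel' : (σ ω) ^ 2 - algebraMap K L t * σ ω + algebraMap K L n = 0 := by
    have := congrArg σ hrel
    simpa [map_sub, map_add, map_mul, map_pow, AlgEquiv.commutes] using this
  have hprod : (σ ω - ω) * (σ ω - (algebraMap K L t - ω)) = 0 := by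
    linear_combination hrel' - hrel
  rcases mul_eq_zero.mp hprod with h | h
  · exfalso
    obtain ⟨y, hy⟩ := hfix ω (sub_eq_zero.mp h)
    apply hgen.irred y
    apply (algebraMap K L).injective
    rw [map_zero, map_add, map_sub, map_mul, map_pow, hy]
    exact hrel
  · exact sub_eq_zero.mp h

end Aux

/-- **NORM-ONE-ELT** (helper83), VERBATIM. -/
theorem normOneEltC_h83 : NormOneEltC83 := by
  intro K L _ _ _ _ _ t n ω h2 hgen v w₁ w₂ hne hw₁ hw₂
  obtain ⟨σ, hinv, hfix⟩ := exists_conj83 (K := K) (L := L) h2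
  have hc12 := eq_comap_conj83 σ hinv hfix v w₁ w₂ hne hw₁ hw₂
  refine ⟨?_, ?_⟩
  · intro w' hw'
    by_cases h : w' = w₁
    · exact Or.inl h
    · right
      have hc1' := eq_comap_conj83 σ hinv hfix v w₁ w' (Ne.symm h) hw₁ hw'
      have heq : w'.asIdeal.comap (conjInt83 σ : 𝓞 L →+* 𝓞 L)
          = w₂.asIdeal.comap (conjInt83 σ : 𝓞 L →+* 𝓞 L) := by rw [← hc1', ← hc12]
      have hinj := Ideal.comap_injective_of_surjective (conjInt83 σ : 𝓞 L →+* 𝓞 L)
        (conjInt83 σ).surjective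
      exact HeightOneSpectrum.ext (hinj heq)
  · obtain ⟨α, hα1, hα2, hα3⟩ := exists_crt_elt83 w₁ w₂ hne
    have hσ1 : conjInt83 σ α ∈ w₂.asIdeal := by
      rw [hc12, Ideal.mem_comap] at hα1
      exact hα1
    have hσ2 : conjInt83 σ α ∉ w₂.asIdeal ^ 2 := by
      rw [pow_eq_comap_conj83 σ hinv hfix v w₁ w₂ hne hw₁ hw₂ 2, Ideal.mem_comap] at hα2
      exact hα2
    have hσ3 : conjInt83 σ α ∉ w₁.asIdeal := by
      rw [eq_comap_conj83 σ hinv hfix v w₂ w₁ (Ne.symm hne) hw₂ hw₁, Ideal.mem_comap] at hα3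
      exact hα3
    have hv11 : w₁.intValuation α = WithZero.exp (-1 : ℤ) := intVal_eq_exp_neg_one83 w₁ hα1 hα2
    have hv12 : w₂.intValuation α = 1 := HeightOneSpectrum.intValuation_eq_one_iff.mpr hα3
    have hv21 : w₁.intValuation (conjInt83 σ α) = 1 :=
      HeightOneSpectrum.intValuation_eq_one_iff.mpr hσ3
    have hv22 : w₂.intValuation (conjInt83 σ α) = WithZero.exp (-1 : ℤ) :=
      intVal_eq_exp_neg_one83 w₂ hσ1 hσ2
    have hα0 : (α : L) ≠ 0 := by
      intro h
      apply hα3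
      have : α = 0 := RingOfIntegers.ext h
      rw [this]
      exact zero_mem _
    have hσα0 : σ (α : L) ≠ 0 := fun h => hα0 ((map_eq_zero σ).mp h)
    obtain ⟨a, b, hab⟩ := exists_coords83 t n ω h2 hgen ((α : L) / σ (α : L))
    have hval : ∀ w : HeightOneSpectrum (𝓞 L), val83 w (elt83 ω a b)
        = w.intValuation α / w.intValuation (conjInt83 σ α) := by
      intro w
      rw [hab]
      show Valued.v (algebraMap L (w.adicCompletion L) ((α : L) / σ (α : L))) = _
      have h1 : Valued.v (algebraMap L (w.adicCompletion L) ((α : L) / σ (α : L)))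
          = w.valuation L ((α : L) / σ (α : L)) :=
        HeightOneSpectrum.valuedAdicCompletion_eq_valuation' w _
      rw [h1, map_div₀]
      have h2 : w.valuation L (α : L) = w.intValuation α := w.valuation_of_algebraMap α
      have h3 : w.valuation L (σ (α : L)) = w.intValuation (conjInt83 σ α) :=
        w.valuation_of_algebraMap (conjInt83 σ α)
      rw [h2, h3]
    refine ⟨a, b, ?_, ?_, ?_⟩
    · apply (algebraMap K L).injective
      have hσβ : σ (elt83 ω a b) = algebraMap K L a + algebraMap K L b * (algebraMap K L t - ω) := by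
        unfold elt83
        rw [map_add, map_mul, AlgEquiv.commutes, AlgEquiv.commutes, conj_gen83 σ hfix t n ω hgen]
      have hN : algebraMap K L (a ^ 2 + t * a * b + n * b ^ 2)
          = elt83 ω a b * σ (elt83 ω a b) := by
        rw [hσβ]
        unfold elt83
        simp only [map_add, map_mul, map_pow]
        linear_combination (algebraMap K L b) ^ 2 * hgen.rel
      rw [hN, hab, map_one, map_div₀, hinv]
      field_simp
    · rw [hval, hv11, hv21, div_one]
    · rw [hval, hv12, hv22, one_div, ← WithZero.exp_neg, neg_neg]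

end Fermat.Agent.LT.A2.H83

end
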