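import Fermat.Agent.LT.A2.H83.NormOneElt

/-!
# Row LT, tower A2, sub-leaf of A2.02: `SplitEltC83` (helper83), OFF-MAIN

`L / K` quadratic, `w₁ ≠ w₂` over `v`, `v ∤ t² - 4n`.  For `α ∈ w₁ ∖ (w₁² ∪ w₂)` write
`α = a + b ω`.  Then `b² (t² - 4n) = (α - σ α)²` is integral, so `b` is integral at `v`;
`a² + (t b) a + (n b² - N α) = 0` makes `a` integral at `v`; `N α = α σ(α) ∈ v ∖ v²` because
`σ(α) ∉ w₁`.
-/

set_option autoImplicit false
set_option linter.unusedSectionVars false
set_option linter.unusedSimpArgs false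
set_option linter.style.haveILetI false

open IsDedekindDomain NumberField AutomorphicForm Polynomial
open scoped MatrixGroups

noncomputable section

namespace Fermat.Agent.LT.A2.H83

open Fermat.Agent.LT.H130 Fermat.Agent.LT.H556 Fermat.Agent.LT.A2

section Aux

variable {K L : Type} [Field K] [NumberField K] [Field L] [NumberField L] [Algebra K L]

/-- `val83` is the valuation of `K`. -/
theorem val83_eq83 (v : HeightOneSpectrum (𝓞 K)) (x : K) : val83 v x = v.valuation K x :=
  HeightOneSpectrum.valuedAdicCompletion_eq_valuation' v x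

/-- `IntAt83` in terms of the valuation of `K`. -/
theorem intAt83_iff83 (v : HeightOneSpectrum (𝓞 K)) (x : K) :
    IntAt83 v x ↔ v.valuation K x ≤ 1 := by
  unfold IntAt83
  rw [show Valued.v (algebraMap K (v.adicCompletion K) x) = v.valuation K x from
    HeightOneSpectrum.valuedAdicCompletion_eq_valuation' v x]

/-- An algebraic integer of `K` is integral at every place. -/
theorem valuation_le_one_of_isIntegral83 (v : HeightOneSpectrum (𝓞 K)) {x : K}
    (hx : IsIntegral ℤ x) : v.valuation K x ≤ 1 :=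
  v.valuation_le_one (⟨x, hx⟩ : 𝓞 K)

/-- A root of `X² + p X + q` with `p`, `q` integral at `v` is integral at `v`. -/
theorem valuation_le_one_of_quadratic83 {Γ : Type*} [LinearOrderedCommGroupWithZero Γ]
    (V : Valuation K Γ) {a p q : K} (hp : V p ≤ 1) (hq : V q ≤ 1)
    (h : a ^ 2 + p * a + q = 0) : V a ≤ 1 := by
  by_contra hcon
  push Not at hcon
  have ha0 : 0 < V a := lt_trans zero_lt_one hcon
  have h1 : V (a ^ 2) ≤ V a := by
    have e : a ^ 2 = -(p * a + q) := by linear_combination h
    rw [e, Valuation.map_neg]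
    apply Valuation.map_add_le
    · rw [map_mul]
      calc V p * V a ≤ 1 * V a := mul_le_mul_left hp (V a)
        _ = V a := one_mul _
    · exact le_trans hq hcon.le
  rw [map_pow, pow_two] at h1
  have h2 : V a ≤ 1 := by
    have := (mul_le_iff_le_one_left ha0).mp h1
    exact this
  exact absurd h2 (not_le.mpr hcon)

end Aux

/-- **SPLIT-ELT** (helper83), VERBATIM. -/
theorem splitEltC_h83 : SplitEltC83 := by
  intro K L _ _ _ _ _ t n ω h2 hgen v w₁ w₂ hne hw₁ hw₂ hdisc
  obtain ⟨σ, hinv, hfix⟩ := exists_conj83 (K := K) (L := L) h2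
  obtain ⟨α, hα1, hα2, hα3⟩ := exists_crt_elt83 w₁ w₂ hne
  have hσ3 : conjInt83 σ α ∉ w₁.asIdeal := by
    rw [eq_comap_conj83 σ hinv hfix v w₂ w₁ (Ne.symm hne) hw₂ hw₁, Ideal.mem_comap] at hα3
    exact hα3
  have hv11 : w₁.intValuation α = WithZero.exp (-1 : ℤ) := intVal_eq_exp_neg_one83 w₁ hα1 hα2
  have hv12 : w₂.intValuation α = 1 := HeightOneSpectrum.intValuation_eq_one_iff.mpr hα3
  obtain ⟨a, b, hab⟩ := exists_coords83 t n ω h2 hgen (α : L)
  have hσω := conj_gen83 σ hfix t n ω hgen
  have hσα : σ (α : L) = algebraMap K L a + algebraMap K L b * (algebraMap K L t - ω) := by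
    rw [← hab]
    unfold elt83
    rw [map_add, map_mul, AlgEquiv.commutes, AlgEquiv.commutes, hσω]
  have habα : (α : L) = algebraMap K L a + algebraMap K L b * ω := by
    rw [← hab]; rfl
  -- the norm
  obtain ⟨y, hy⟩ := norm_descends83 σ hinv hfix α
  have hyL : algebraMap K L (y : K) = (α : L) * σ (α : L) := by
    have := congrArg (fun z : 𝓞 L => (z : L)) hy
    exact this
  have hN : a ^ 2 + t * a * b + n * b ^ 2 = (y : K) := by
    apply (algebraMap K L).injective
    rw [hyL, hσα, habα]
    simp only [map_add, map_mul, map_pow]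
    linear_combination (algebraMap K L b) ^ 2 * hgen.rel
  have hyv : y ∈ v.asIdeal := by
    rw [← hw₁, Ideal.mem_comap, hy]
    exact Ideal.mul_mem_right _ _ hα1
  have hyv2 : y ∉ v.asIdeal ^ 2 := by
    intro h
    have h1 : algebraMap (𝓞 K) (𝓞 L) y ∈ w₁.asIdeal ^ 2 := by
      have hle : (v.asIdeal ^ 2).map (algebraMap (𝓞 K) (𝓞 L)) ≤ w₁.asIdeal ^ 2 := by
        rw [Ideal.map_pow]
        apply Ideal.pow_right_mono
        rw [Ideal.map_le_iff_le_comap, hw₁]
      exact hle (Ideal.mem_map_of_mem _ h)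
    rw [hy] at h1
    have h2 : w₁.intValuation (α * conjInt83 σ α) ≤ WithZero.exp (-((2 : ℕ) : ℤ)) :=
      (w₁.intValuation_le_pow_iff_mem _ 2).mpr h1
    rw [map_mul, hv11, HeightOneSpectrum.intValuation_eq_one_iff.mpr hσ3, mul_one,
      WithZero.exp_le_exp] at h2
    omega
  have hvy : v.intValuation y = WithZero.exp (-1 : ℤ) := intVal_eq_exp_neg_one83 v hyv hyv2
  -- integrality of `b`
  have hb : v.valuation K b ≤ 1 := by
    have hsq : algebraMap K L (b ^ 2 * (t ^ 2 - 4 * n)) = ((α : L) - σ (α : L)) ^ 2 := by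
      rw [hσα, habα]
      simp only [map_add, map_mul, map_pow, map_sub, map_ofNat]
      linear_combination (-4 * (algebraMap K L b) ^ 2) * hgen.rel
    have hint : IsIntegral ℤ (b ^ 2 * (t ^ 2 - 4 * n)) := by
      have h1 : IsIntegral ℤ (((α : L) - σ (α : L)) ^ 2) := by
        have hα : IsIntegral ℤ (α : L) := α.2
        have hσαi : IsIntegral ℤ (σ (α : L)) := map_isIntegral_int σ hα
        exact (hα.sub hσαi).pow 2
      rw [← hsq] at h1
      exact (isIntegral_algebraMap_iff (algebraMap K L).injective).mp h1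
    have h3 := valuation_le_one_of_isIntegral83 v hint
    rw [map_mul, map_pow, ← val83_eq83 v (t ^ 2 - 4 * n), hdisc, mul_one] at h3
    by_contra hcon
    push Not at hcon
    have : 1 < v.valuation K b ^ 2 := one_lt_pow₀ hcon (by norm_num)
    exact absurd h3 (not_le.mpr this)
  have ht : v.valuation K t ≤ 1 := valuation_le_one_of_isIntegral83 v hgen.int_t
  have hn : v.valuation K n ≤ 1 := valuation_le_one_of_isIntegral83 v hgen.int_n
  have hyK : v.valuation K (y : K) = WithZero.exp (-1 : ℤ) := by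
    rw [← hvy]
    exact v.valuation_of_algebraMap y
  -- integrality of `a`
  have ha : v.valuation K a ≤ 1 := by
    apply valuation_le_one_of_quadratic83 (v.valuation K) (p := t * b) (q := n * b ^ 2 - (y : K))
    · rw [map_mul]
      exact mul_le_one' ht hb
    · apply Valuation.map_sub_le
      · rw [map_mul, map_pow]
        exact mul_le_one' hn (pow_le_one₀ zero_le hb)
      · rw [hyK, ← WithZero.exp_zero, WithZero.exp_le_exp]
        omega
    · linear_combination hN
  refine ⟨a, b, (intAt83_iff83 v a).mpr ha, (intAt83_iff83 v b).mpr hb, ?_, ?_, ?_⟩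
  · rw [val83_eq83, hN, hyK]
  · rw [val83_eq83, hab, ← hv11]
    exact w₁.valuation_of_algebraMap α
  · rw [val83_eq83, hab, ← hv12]
    exact w₂.valuation_of_algebraMap α

end Fermat.Agent.LT.A2.H83

end
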