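import Fermat.Agent.LT.A2.H83.TorusSpec

/-!
# Row LT, tower A2, sub-leaf of A2.02: `UnramFiniteC83` (helper83), OFF-MAIN

A continuous character of finite order of the idele group is unramified outside a finite set of
places: its kernel is open, and an open neighbourhood of `1` in the idele group contains the unit
ideles supported at `w` for all `w` outside a finite set (product topology on `∏_w 𝒪_w`).
-/

set_option autoImplicit false

open IsDedekindDomain NumberField AutomorphicForm Topology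
open scoped MatrixGroups

noncomputable section

namespace Fermat.Agent.LT.A2.H83

open Fermat.Agent.LT.H130 Fermat.Agent.LT.H556 Fermat.Agent.LT.A2

section

variable {L : Type} [Field L] [NumberField L]

/-- The kernel of a continuous character of finite order is open. -/
theorem isOpen_ker83 {G : Type*} [TopologicalSpace G] [Monoid G] (χ : G →* ℂˣ)
    (hcont : Continuous χ) (hfin : ∃ n : ℕ, 0 < n ∧ ∀ z : G, χ z ^ n = 1) :
    IsOpen {z : G | χ z = 1} := by
  obtain ⟨n, hn, hχn⟩ := hfin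
  have hne : NeZero n := ⟨hn.ne'⟩
  have hfin0 : Finite (rootsOfUnity n ℂ) := inferInstance
  have hfin1 : (rootsOfUnity n ℂ : Set ℂˣ).Finite := Set.finite_coe_iff.mp hfin0
  have hfinite : ((rootsOfUnity n ℂ : Set ℂˣ) \ {1}).Finite := hfin1.subset Set.sdiff_subset
  have hopen : IsOpen (((rootsOfUnity n ℂ : Set ℂˣ) \ {1})ᶜ) := hfinite.isClosed.isOpen_compl
  have heq : {z : G | χ z = 1} = χ ⁻¹' (((rootsOfUnity n ℂ : Set ℂˣ) \ {1})ᶜ) := by
    ext z
    simp only [Set.mem_ofPred_eq, Set.mem_preimage, Set.mem_compl_iff, Set.mem_sdiff,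
      Set.mem_singleton_iff, not_and, not_not, SetLike.mem_coe]
    constructor
    · intro h _
      exact h
    · intro h
      exact h ((mem_rootsOfUnity n _).mpr (hχn z))
  rw [heq]
  exact hopen.preimage hcont

/-- The embedding of `∏_w 𝒪_w` into the adeles, with `1` at the infinite places. -/
def intAdele83 (x : Π w : HeightOneSpectrum (𝓞 L), w.adicCompletionIntegers L) : A0.Adl L :=
  ((1 : InfiniteAdeleRing L),
    (RestrictedProduct.structureMap (fun w : HeightOneSpectrum (𝓞 L) => w.adicCompletion L)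
      (fun w : HeightOneSpectrum (𝓞 L) => (w.adicCompletionIntegers L : Set (w.adicCompletion L)))
      Filter.cofinite x : FiniteAdeleRing (𝓞 L) L))

theorem continuous_intAdele83 : Continuous (intAdele83 (L := L)) := by
  unfold intAdele83
  exact Continuous.prodMk continuous_const RestrictedProduct.isEmbedding_structureMap.continuous

/-- An adele with `1` at the infinite places and integral finite components is in the range of
`intAdele83`. -/
theorem eq_intAdele83 (a : A0.Adl L) (h1 : a.1 = 1)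
    (h2 : ∀ w : HeightOneSpectrum (𝓞 L), a.2 w ∈ w.adicCompletionIntegers L) :
    a = intAdele83 (fun w => ⟨a.2 w, h2 w⟩) := by
  refine Prod.ext h1 ?_
  exact FiniteAdeleRing.ext L fun w => rfl

/-- A neighbourhood of `1` in the adeles contains the integral adeles which are `1` at the
infinite places and at a finite set of finite places. -/
theorem exists_finset_of_nhds83 {V : Set (A0.Adl L)} (hV : IsOpen V) (h1 : (1 : A0.Adl L) ∈ V) :
    ∃ S : Finset (HeightOneSpectrum (𝓞 L)), ∀ a : A0.Adl L, a.1 = 1 →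
      (∀ w : HeightOneSpectrum (𝓞 L), a.2 w ∈ w.adicCompletionIntegers L) →
      (∀ w ∈ S, a.2 w = 1) → a ∈ V := by
  have hpre : IsOpen (intAdele83 (L := L) ⁻¹' V) := hV.preimage continuous_intAdele83
  have h1' : (1 : Π w : HeightOneSpectrum (𝓞 L), w.adicCompletionIntegers L)
      ∈ intAdele83 (L := L) ⁻¹' V := by
    show intAdele83 1 ∈ V
    have : intAdele83 (1 : Π w : HeightOneSpectrum (𝓞 L), w.adicCompletionIntegers L)
        = (1 : A0.Adl L) := by
      refine Prod.ext rfl ?_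
      exact FiniteAdeleRing.ext L fun w => rfl
    rw [this]
    exact h1
  obtain ⟨S, u, hu, hsub⟩ := isOpen_pi_iff.mp hpre 1 h1'
  refine ⟨S, fun a ha1 ha2 haS => ?_⟩
  rw [eq_intAdele83 a ha1 ha2]
  apply hsub
  intro w hw
  have hmem : (fun w : HeightOneSpectrum (𝓞 L) =>
      (⟨a.2 w, ha2 w⟩ : w.adicCompletionIntegers L)) w = 1 := Subtype.ext (haS w hw)
  exact hmem.symm ▸ (hu w hw).2

end

/-- **UNRAM-FINITE** (helper83), VERBATIM. -/
theorem unramFiniteC_h83 : UnramFiniteC83 := by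
  intro L _ _ χ hcont hfin
  have hN : IsOpen {z : (A0.Adl L)ˣ | χ z = 1} := isOpen_ker83 χ hcont hfin
  -- the units topology
  obtain ⟨W, hW, hWN⟩ := (Units.isEmbedding_embedProduct (M := A0.Adl L)).isInducing.isOpen_iff.mp hN
  have h1W : ((1 : A0.Adl L), MulOpposite.op (1 : A0.Adl L)) ∈ W := by
    have : (1 : (A0.Adl L)ˣ) ∈ Units.embedProduct (A0.Adl L) ⁻¹' W := by
      rw [hWN]
      exact map_one χ
    exact this
  obtain ⟨V₁, V₂, hV₁, hV₂, h1V₁, h1V₂, hVW⟩ := isOpen_prod_iff.mp hW _ _ h1W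
  obtain ⟨S₁, hS₁⟩ := exists_finset_of_nhds83 hV₁ h1V₁
  have hV₂' : IsOpen (MulOpposite.op ⁻¹' V₂ : Set (A0.Adl L)) :=
    hV₂.preimage MulOpposite.continuous_op
  obtain ⟨S₂, hS₂⟩ := exists_finset_of_nhds83 hV₂' h1V₂
  classical
  refine ⟨S₁ ∪ S₂, fun w hw z hz => ?_⟩
  obtain ⟨⟨hzinf, hzfin⟩, hzw⟩ := hz
  have hw₁ : w ∉ S₁ := fun h => hw (Finset.mem_union_left _ h)
  have hw₂ : w ∉ S₂ := fun h => hw (Finset.mem_union_right _ h)
  -- components of `z`
  have hz1 : (z : A0.Adl L).1 = 1 := funext hzinf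
  have hzint : ∀ w' : HeightOneSpectrum (𝓞 L),
      (z : A0.Adl L).2 w' ∈ w'.adicCompletionIntegers L := by
    intro w'
    by_cases h : w' = w
    · subst h
      exact (HeightOneSpectrum.mem_adicCompletionIntegers (𝓞 L) L w').mpr hzw.le
    · rw [hzfin w' h]
      exact one_mem _
  -- components of `z⁻¹`
  have hmul : (z : A0.Adl L) * ((z⁻¹ : (A0.Adl L)ˣ) : A0.Adl L) = 1 := Units.mul_inv z
  have hmul1 : (z : A0.Adl L).1 * ((z⁻¹ : (A0.Adl L)ˣ) : A0.Adl L).1 = 1 :=
    congrArg Prod.fst hmul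
  have hmul2 : ∀ w' : HeightOneSpectrum (𝓞 L),
      (z : A0.Adl L).2 w' * ((z⁻¹ : (A0.Adl L)ˣ) : A0.Adl L).2 w' = 1 := fun w' =>
    congrArg (fun a : A0.Adl L => a.2 w') hmul
  have hi1 : ((z⁻¹ : (A0.Adl L)ˣ) : A0.Adl L).1 = 1 := by
    rw [hz1, one_mul] at hmul1
    exact hmul1
  have hifin : ∀ w' : HeightOneSpectrum (𝓞 L), w' ≠ w →
      ((z⁻¹ : (A0.Adl L)ˣ) : A0.Adl L).2 w' = 1 := by
    intro w' h
    have := hmul2 w'
    rw [hzfin w' h, one_mul] at this
    exact this
  have hiint : ∀ w' : HeightOneSpectrum (𝓞 L),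
      ((z⁻¹ : (A0.Adl L)ˣ) : A0.Adl L).2 w' ∈ w'.adicCompletionIntegers L := by
    intro w'
    by_cases h : w' = w
    · subst h
      have h2 := congrArg Valued.v (hmul2 w')
      rw [map_mul, hzw, one_mul, map_one] at h2
      exact (HeightOneSpectrum.mem_adicCompletionIntegers (𝓞 L) L w').mpr h2.le
    · rw [hifin w' h]
      exact one_mem _
  have hzV₁ : (z : A0.Adl L) ∈ V₁ :=
    hS₁ _ hz1 hzint fun w' hw' => hzfin w' (fun h => hw₁ (h ▸ hw'))
  have hzV₂ : ((z⁻¹ : (A0.Adl L)ˣ) : A0.Adl L) ∈ MulOpposite.op ⁻¹' V₂ :=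
    hS₂ _ hi1 hiint fun w' hw' => hifin w' (fun h => hw₂ (h ▸ hw'))
  have hzW : Units.embedProduct (A0.Adl L) z ∈ W := hVW ⟨hzV₁, hzV₂⟩
  have : z ∈ Units.embedProduct (A0.Adl L) ⁻¹' W := hzW
  rw [hWN] at this
  exact this

end Fermat.Agent.LT.A2.H83

end
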