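import Fermat.Agent.LT.A2.H83.SBKit

/-!
# Row LT, tower A2, station LOC-FIN (cut LF54 of helper54), leaf 14 `LeafWeylOp` (helper83)

OFF-MAIN.  The LEFT rule of the Weyl element for the Bruhat formulas `rOp`:
`rOp (w h) Φ = γ · FT (rOp h Φ)`, `det h = 1`, `h = [[a, b], [c, d]]`, in three cases:

* `c = 0`: the dilation `y ↦ a y` (`CovP`);
* `c ≠ 0`, `a = 0`: the dilation by `-c⁻¹`, Fourier inversion (`InvP`), `γ² c₀ = η(-1)`;
* `c ≠ 0`, `a ≠ 0`: the dilation by `-c⁻¹`, the Gauss identity (`GaussP`) at `a c`,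
  `γ ‖a c‖ G(a c) = η(-a c)`, and `d Q(z)/c - Q(z - c ξ)/(a c) = (b Q(z) + B(ξ, z) - c Q(ξ))/a`.
-/

set_option autoImplicit false
set_option linter.unusedSectionVars false
set_option linter.unusedSimpArgs false
set_option linter.style.haveILetI false

open IsDedekindDomain NumberField MeasureTheory
open scoped Topology

noncomputable section

namespace Fermat.Agent.LT.A2.H83

open Fermat.Agent.LT.A2 Fermat.Agent.LT.A2.WX467 Fermat.Agent.LT.A2.LF54

section Forms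

variable {k : Type} [NormedField k]

theorem qfL_smul83 (t n a : k) (y : k × k) : qfL t n (a • y) = a ^ 2 * qfL t n y := by
  unfold qfL
  simp only [Prod.smul_fst, Prod.smul_snd, smul_eq_mul]
  ring

theorem bfL_smul_right83 (t n a : k) (ξ y : k × k) : bfL t n ξ (a • y) = a * bfL t n ξ y := by
  unfold bfL qfL
  simp only [Prod.smul_fst, Prod.smul_snd, smul_eq_mul, Prod.fst_add, Prod.snd_add]
  ring

theorem bfL_smul_left83 (t n a : k) (ξ y : k × k) : bfL t n (a • ξ) y = a * bfL t n ξ y := by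
  unfold bfL qfL
  simp only [Prod.smul_fst, Prod.smul_snd, smul_eq_mul, Prod.fst_add, Prod.snd_add]
  ring

theorem bfL_comm83 (t n : k) (ξ y : k × k) : bfL t n ξ y = bfL t n y ξ := by
  unfold bfL qfL
  simp only [Prod.fst_add, Prod.snd_add]
  ring

theorem qfL_add83 (t n : k) (z ξ : k × k) :
    qfL t n (z + ξ) = qfL t n z + bfL t n ξ z + qfL t n ξ := by
  unfold bfL qfL
  simp only [Prod.fst_add, Prod.snd_add]
  ring

theorem rOp_of_eq83 (t n : k) (ψ : k → ℂ) (μ : @Measure k (borel k)) (γ : ℂ) (η : k → ℂ)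
    (h : Matrix (Fin 2) (Fin 2) k) (hc : h 1 0 = 0) (Φ : k × k → ℂ) (ξ : k × k) :
    rOp t n ψ μ γ η h Φ ξ
      = η (h 0 0) * ((‖h 0 0‖ : ℝ) : ℂ) * ψ (h 0 0 * h 0 1 * qfL t n ξ) * Φ (h 0 0 • ξ) := by
  unfold rOp
  rw [if_pos hc]

theorem rOp_of_ne83 (t n : k) (ψ : k → ℂ) (μ : @Measure k (borel k)) (γ : ℂ) (η : k → ℂ)
    (h : Matrix (Fin 2) (Fin 2) k) (hc : h 1 0 ≠ 0) (Φ : k × k → ℂ) (ξ : k × k) :
    rOp t n ψ μ γ η h Φ ξ
      = γ * η (-(h 1 0)) * ((‖h 1 0‖⁻¹ : ℝ) : ℂ) *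
        intL μ fun y =>
          ψ ((h 0 0 * qfL t n ξ - bfL t n ξ y + h 1 1 * qfL t n y) / h 1 0) * Φ y := by
  unfold rOp
  rw [if_neg hc]

theorem wmul_apply83 (h : Matrix (Fin 2) (Fin 2) k) :
    ((!![0, 1; -1, 0] : Matrix (Fin 2) (Fin 2) k) * h) 0 0 = h 1 0 ∧
    ((!![0, 1; -1, 0] : Matrix (Fin 2) (Fin 2) k) * h) 0 1 = h 1 1 ∧
    ((!![0, 1; -1, 0] : Matrix (Fin 2) (Fin 2) k) * h) 1 0 = -h 0 0 ∧
    ((!![0, 1; -1, 0] : Matrix (Fin 2) (Fin 2) k) * h) 1 1 = -h 0 1 := by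
  refine ⟨?_, ?_, ?_, ?_⟩ <;> simp [Matrix.mul_apply, Fin.sum_univ_two]

end Forms

section Core

variable {k : Type} [NormedField k] [IsUltrametricDist k]

/-- The inner integral of the Bruhat formula as a Fourier transform:
`∫ ψ((a Q(y) - B(y, z) + d Q(z)) / c) Φ(z) dz = ψ(a Q(y) / c) · FT(ψ(d Q / c) Φ)(-y / c)`. -/
theorem inner_eq_ft83 (t n : k) (ψ : k → ℂ) (μ : @Measure k (borel k))
    (hadd : ∀ x y : k, ψ (x + y) = ψ x * ψ y) (a d c : k) (hc : c ≠ 0)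
    (Φ : k × k → ℂ) (y : k × k) :
    (intL μ fun z => ψ ((a * qfL t n y - bfL t n y z + d * qfL t n z) / c) * Φ z)
      = ψ (a * qfL t n y / c) *
        ftL t n ψ μ (fun z => ψ (d / c * qfL t n z) * Φ z) ((-c⁻¹) • y) := by
  unfold ftL
  rw [← intL_const_mul83]
  apply intL_congr83
  intro z
  have e : (a * qfL t n y - bfL t n y z + d * qfL t n z) / c
      = a * qfL t n y / c + (d / c * qfL t n z + bfL t n ((-c⁻¹) • y) z) := by
    rw [bfL_smul_left83]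
    field_simp
    ring
  rw [e, hadd, hadd]
  ring

/-- **The left rule of the Weyl element**, abstract form. -/
theorem weylOp_core83 (t n : k) (ψ : k → ℂ) (μ : @Measure k (borel k)) (c₀ : ℝ) (G : k → ℂ)
    (γ : ℂ) (η : k → ℂ) (hctx : Ctx t n ψ μ) (hF : FourierCert t n ψ μ c₀ G)
    (hE : EtaCert t n c₀ G γ η) : WeylOpP t n ψ μ γ η := by
  intro h hdet Φ hΦ ξ
  have hψ := hctx.char
  have hadd : ∀ x y : k, ψ (x + y) = ψ x * ψ y := hψ.2.1
  obtain ⟨e00, e01, e10, e11⟩ := wmul_apply83 h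
  have hdet' : h 0 0 * h 1 1 - h 0 1 * h 1 0 = 1 := by rw [← hdet, Matrix.det_fin_two]
  have hηsq : ∀ x : k, x ≠ 0 → η x * η x = 1 := by
    intro x hx
    rcases hE.eta_sq x hx with h1 | h1 <;> rw [h1] <;> norm_num
  unfold ftL
  by_cases hc : h 1 0 = 0
  · -- `c = 0`
    have ha : h 0 0 ≠ 0 := by
      intro h0
      rw [h0, hc] at hdet'
      simp at hdet'
    have hne : ((!![0, 1; -1, 0] : Matrix (Fin 2) (Fin 2) k) * h) 1 0 ≠ 0 := by
      rw [e10]; exact neg_ne_zero.mpr ha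
    rw [rOp_of_ne83 t n ψ μ γ η _ hne, e00, e10, e11, neg_neg, norm_neg]
    -- the function `f`
    set f : k × k → ℂ := fun y =>
      ψ ((h 1 0 * qfL t n ξ - bfL t n ξ y + -h 0 1 * qfL t n y) / -h 0 0) * Φ y with hf
    have hfSB : LF54.IsSB f := by
      apply isSB_mul_left83 hΦ
      apply locConst_psi_comp83 hψ
      have h1 := continuous_bfL_right83 t n ξ
      have h2 := continuous_qfL83 t n
      fun_prop
    have hcov := intL_smul83 hF.cov ha hfSB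
    have hRHS : (intL μ fun y => rOp t n ψ μ γ η h Φ y * ψ (bfL t n ξ y))
        = (η (h 0 0) * ((‖h 0 0‖ : ℝ) : ℂ)) * intL μ (fun y => f (h 0 0 • y)) := by
      rw [← intL_const_mul83]
      apply intL_congr83
      intro y
      rw [rOp_of_eq83 t n ψ μ γ η h hc, hf]
      simp only
      have e : (h 1 0 * qfL t n ξ - bfL t n ξ (h 0 0 • y) + -h 0 1 * qfL t n (h 0 0 • y)) / -h 0 0
          = h 0 0 * h 0 1 * qfL t n y + bfL t n ξ y := by
        rw [bfL_smul_right83, qfL_smul83, hc]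
        field_simp
        ring
      rw [e, hadd]
      ring
    rw [hRHS, hcov]
    have hna : (‖h 0 0‖ : ℝ) ≠ 0 := norm_ne_zero_iff.mpr ha
    have hnaC : ((‖h 0 0‖ : ℝ) : ℂ) ≠ 0 := by exact_mod_cast hna
    push_cast
    field_simp
  · -- `c ≠ 0`
    have hnc : (‖h 1 0‖ : ℝ) ≠ 0 := norm_ne_zero_iff.mpr hc
    have hncC : ((‖h 1 0‖ : ℝ) : ℂ) ≠ 0 := by exact_mod_cast hnc
    -- `Ψ = ψ(d Q / c) Φ`
    set Ψ : k × k → ℂ := fun z => ψ (h 1 1 / h 1 0 * qfL t n z) * Φ z with hΨ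
    have hΨSB : LF54.IsSB Ψ := by
      apply isSB_mul_left83 hΦ
      apply locConst_psi_comp83 hψ
      have h2 := continuous_qfL83 t n
      fun_prop
    have hFTΨ : LF54.IsSB (LF54.ftL t n ψ μ Ψ) := hF.ft_sb Ψ hΨSB
    have hci : -(h 1 0)⁻¹ ≠ 0 := neg_ne_zero.mpr (inv_ne_zero hc)
    have hrop : ∀ y : k × k, rOp t n ψ μ γ η h Φ y
        = γ * η (-(h 1 0)) * ((‖h 1 0‖⁻¹ : ℝ) : ℂ) *
          (ψ (h 0 0 * qfL t n y / h 1 0) * LF54.ftL t n ψ μ Ψ ((-(h 1 0)⁻¹) • y)) := by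
      intro y
      rw [rOp_of_ne83 t n ψ μ γ η h hc, inner_eq_ft83 t n ψ μ hadd _ _ _ hc]
    by_cases ha : h 0 0 = 0
    · -- `a = 0`
      have heq : ((!![0, 1; -1, 0] : Matrix (Fin 2) (Fin 2) k) * h) 1 0 = 0 := by
        rw [e10, ha, neg_zero]
      rw [rOp_of_eq83 t n ψ μ γ η _ heq, e00, e01]
      set f₂ : k × k → ℂ := fun y =>
        LF54.ftL t n ψ μ Ψ y * ψ (bfL t n ((-h 1 0) • ξ) y) with hf₂
      have hf₂SB : LF54.IsSB f₂ := by
        apply isSB_mul_right83 hFTΨ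
        apply locConst_psi_comp83 hψ
        exact continuous_bfL_right83 t n _
      have hcov := intL_smul83 hF.cov hci hf₂SB
      have hinv := hF.inv Ψ hΨSB ((-h 1 0) • ξ)
      have hint : intL μ f₂ = (c₀ : ℂ) * Ψ (h 1 0 • ξ) := by
        have : intL μ f₂ = LF54.ftL t n ψ μ (LF54.ftL t n ψ μ Ψ) ((-h 1 0) • ξ) := rfl
        rw [this, hinv]
        congr 2
        rw [neg_smul, neg_neg]
      have hRHS : (intL μ fun y => rOp t n ψ μ γ η h Φ y * ψ (bfL t n ξ y))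
          = (γ * η (-(h 1 0)) * ((‖h 1 0‖⁻¹ : ℝ) : ℂ)) *
            intL μ (fun y => f₂ ((-(h 1 0)⁻¹) • y)) := by
        rw [← intL_const_mul83]
        apply intL_congr83
        intro y
        rw [hrop y, hf₂]
        simp only
        have e1 : h 0 0 * qfL t n y / h 1 0 = 0 := by rw [ha]; simp
        have e2 : bfL t n ((-h 1 0) • ξ) ((-(h 1 0)⁻¹) • y) = bfL t n ξ y := by
          rw [bfL_smul_left83, bfL_smul_right83]
          field_simp
        rw [e1, psi_zero83 ψ hadd hψ.2.2.1, e2]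
        ring
      rw [hRHS, hcov, hint, hΨ]
      simp only
      have e3 : h 1 1 / h 1 0 * qfL t n (h 1 0 • ξ) = h 1 0 * h 1 1 * qfL t n ξ := by
        rw [qfL_smul83]
        field_simp
      rw [e3]
      have hη : η (-1) * η (-(h 1 0)) = η (h 1 0) := by
        rw [← hE.eta_mul (-1) (-(h 1 0)) (by norm_num) (neg_ne_zero.mpr hc)]
        congr 1
        ring
      have hw2 := hE.w2
      have hnorm : ‖-(h 1 0)⁻¹‖ = ‖h 1 0‖⁻¹ := by rw [norm_neg, norm_inv]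
      rw [hnorm]
      push_cast
      have key : γ * (γ * η (-(h 1 0)) * (‖h 1 0‖ : ℂ)⁻¹ *
          ((((‖h 1 0‖ : ℂ)⁻¹) ^ 2)⁻¹ * ((c₀ : ℂ) * (ψ (h 1 0 * h 1 1 * qfL t n ξ) * Φ (h 1 0 • ξ)))))
          = (γ ^ 2 * (c₀ : ℂ)) * η (-(h 1 0)) * (‖h 1 0‖ : ℂ) *
            ψ (h 1 0 * h 1 1 * qfL t n ξ) * Φ (h 1 0 • ξ) := by
        field_simp
      rw [key, hw2, hη]
    · -- `a ≠ 0`
      have hne : ((!![0, 1; -1, 0] : Matrix (Fin 2) (Fin 2) k) * h) 1 0 ≠ 0 := by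
        rw [e10]; exact neg_ne_zero.mpr ha
      have hna : (‖h 0 0‖ : ℝ) ≠ 0 := norm_ne_zero_iff.mpr ha
      have hnaC : ((‖h 0 0‖ : ℝ) : ℂ) ≠ 0 := by exact_mod_cast hna
      rw [rOp_of_ne83 t n ψ μ γ η _ hne, e00, e10, e11, neg_neg, norm_neg]
      set f₃ : k × k → ℂ := fun y =>
        (ψ (h 0 0 * h 1 0 * qfL t n y) * LF54.ftL t n ψ μ Ψ y)
          * ψ (bfL t n ((-h 1 0) • ξ) y) with hf₃
      have hf₃SB : LF54.IsSB f₃ := by
        apply isSB_mul_right83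
        · apply isSB_mul_left83 hFTΨ
          apply locConst_psi_comp83 hψ
          have h2 := continuous_qfL83 t n
          fun_prop
        · apply locConst_psi_comp83 hψ
          exact continuous_bfL_right83 t n _
      have hcov := intL_smul83 hF.cov hci hf₃SB
      have hac : h 0 0 * h 1 0 ≠ 0 := mul_ne_zero ha hc
      have hgauss := hF.gauss (h 0 0 * h 1 0) hac Ψ hΨSB ((-h 1 0) • ξ)
      have hint : intL μ f₃ = G (h 0 0 * h 1 0) *
          intL μ fun z => Ψ z * ψ (-(qfL t n (z + (-h 1 0) • ξ)) / (h 0 0 * h 1 0)) := by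
        have : intL μ f₃ = LF54.ftL t n ψ μ
            (fun y => ψ (h 0 0 * h 1 0 * qfL t n y) * LF54.ftL t n ψ μ Ψ y) ((-h 1 0) • ξ) := rfl
        rw [this, hgauss]
      have hRHS : (intL μ fun y => rOp t n ψ μ γ η h Φ y * ψ (bfL t n ξ y))
          = (γ * η (-(h 1 0)) * ((‖h 1 0‖⁻¹ : ℝ) : ℂ)) *
            intL μ (fun y => f₃ ((-(h 1 0)⁻¹) • y)) := by
        rw [← intL_const_mul83]
        apply intL_congr83
        intro y
        rw [hrop y, hf₃]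
        simp only
        have e1 : h 0 0 * h 1 0 * qfL t n ((-(h 1 0)⁻¹) • y) = h 0 0 * qfL t n y / h 1 0 := by
          rw [qfL_smul83]
          field_simp
        have e2 : bfL t n ((-h 1 0) • ξ) ((-(h 1 0)⁻¹) • y) = bfL t n ξ y := by
          rw [bfL_smul_left83, bfL_smul_right83]
          field_simp
        rw [e1, e2]
        ring
      have hLHS : (intL μ fun y =>
            ψ ((h 1 0 * qfL t n ξ - bfL t n ξ y + -h 0 1 * qfL t n y) / -h 0 0) * Φ y)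
          = intL μ fun z => Ψ z * ψ (-(qfL t n (z + (-h 1 0) • ξ)) / (h 0 0 * h 1 0)) := by
        apply intL_congr83
        intro z
        rw [hΨ]
        simp only
        have e : (h 1 0 * qfL t n ξ - bfL t n ξ z + -h 0 1 * qfL t n z) / -h 0 0
            = h 1 1 / h 1 0 * qfL t n z
              + -(qfL t n (z + (-h 1 0) • ξ)) / (h 0 0 * h 1 0) := by
          rw [qfL_add83, bfL_smul_left83, qfL_smul83]
          field_simp
          linear_combination (-(qfL t n z)) * hdet'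
        rw [e, hadd]
        ring
      rw [hRHS, hcov, hint, hLHS]
      have hη : η (-(h 1 0)) * η (-(h 0 0 * h 1 0)) = η (h 0 0) := by
        rw [← hE.eta_mul (-(h 1 0)) (-(h 0 0 * h 1 0)) (neg_ne_zero.mpr hc)
          (neg_ne_zero.mpr hac)]
        have : -(h 1 0) * -(h 0 0 * h 1 0) = h 0 0 * (h 1 0 * h 1 0) := by ring
        rw [this, hE.eta_mul _ _ ha (mul_ne_zero hc hc), hE.eta_mul _ _ hc hc, hηsq _ hc,
          mul_one]
      have hge := hE.gauss_eta (h 0 0 * h 1 0) hac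
      rw [norm_mul] at hge
      have hnorm : ‖-(h 1 0)⁻¹‖ = ‖h 1 0‖⁻¹ := by rw [norm_neg, norm_inv]
      rw [hnorm]
      push_cast at hge ⊢
      set I := intL μ fun z => Ψ z * ψ (-(qfL t n (z + (-h 1 0) • ξ)) / (h 0 0 * h 1 0))
      have key : γ * (γ * η (-(h 1 0)) * (‖h 1 0‖ : ℂ)⁻¹ *
          ((((‖h 1 0‖ : ℂ)⁻¹) ^ 2)⁻¹ * (G (h 0 0 * h 1 0) * I)))
          = γ * η (-(h 1 0)) * (γ * ((‖h 0 0‖ : ℂ) * (‖h 1 0‖ : ℂ)) * G (h 0 0 * h 1 0))
            * (‖h 0 0‖ : ℂ)⁻¹ * I := by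
        field_simp
      rw [key, hge]
      have : γ * η (-(h 1 0)) * η (-(h 0 0 * h 1 0)) * (‖h 0 0‖ : ℂ)⁻¹ * I
          = γ * (η (-(h 1 0)) * η (-(h 0 0 * h 1 0))) * (‖h 0 0‖ : ℂ)⁻¹ * I := by ring
      rw [this, hη]

end Core

/-- **LF54.14 `LeafWeylOp`** (helper83), VERBATIM. -/
theorem leafWeylOp_h83 : LF54.LeafWeylOp := by
  intro K _ _ v t n ψ μ c G γ η hctx hF hE
  exact weylOp_core83 t n ψ μ c G γ η hctx hF hE

end Fermat.Agent.LT.A2.H83

end
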