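import Fermat.Agent.LT.A2.Kernel

/-!
# Row LT, tower A2, leaf A2.06 `ThetaInvC` (helper83), OFF-MAIN

`thetaInvC_h83 : Fermat.Agent.LT.A2.ThetaInvC`, VERBATIM against `LT/A2/Kernel.lean` of
helper950 (Spec v1).

The theta kernel `Θ(g, m) = ∑_{ξ ∈ K²} F g m ξ` of good data is invariant under the rational
admissible pairs `(γ, y)`, `γ ∈ GL₂(K)`, `y ∈ T(K)`, `det γ = det y`:

* `γ = d(a) γ₁`, `a = det γ`, `γ₁ ∈ SL₂(K)`; the pair `(d(a), y)` permutes `K²` (`torK`);
* `SL₂(K)` is generated by `n(b)`, `t(a)` and `w` (Bruhat: `γ₁ = n(x) t(s)` or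
  `γ₁ = n(x) w t(s) n(y)`);
* `n(b)`: `ψ(b Q(ξ)) = 1` for `ξ ∈ K²` (`unip`); `t(a)`: `ξ ↦ a ξ` permutes `K²` (`diagK`);
  `w`: Poisson summation (`weyl` + `Poisson2C`), the summability of the Fourier side being the
  regularity of the family at the pair `(w g, m)`.
-/

set_option autoImplicit false
set_option linter.unusedSectionVars false
set_option linter.unusedSimpArgs false

open IsDedekindDomain NumberField AutomorphicForm MeasureTheory
open scoped MatrixGroups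

noncomputable section

namespace Fermat.Agent.LT.A2.H83

open Fermat.Agent.LT.H130 Fermat.Agent.LT.H556 Fermat.Agent.LT.A2

variable {K : Type} [Field K] [NumberField K]

/-! ## Rational elements of `GL₂(K)` -/

/-- `n(b) = [[1, b], [0, 1]]`. -/
def nK83 (b : K) : GL (Fin 2) K :=
  Matrix.GeneralLinearGroup.mkOfDetNeZero !![1, b; 0, 1] (by simp [Matrix.det_fin_two])

/-- `w = [[0, 1], [-1, 0]]`. -/
def wK83 : GL (Fin 2) K :=
  Matrix.GeneralLinearGroup.mkOfDetNeZero !![0, 1; -1, 0] (by simp [Matrix.det_fin_two])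

/-- `t(a) = diag(a, a⁻¹)`. -/
def tK83 (a : K) (ha : a ≠ 0) : GL (Fin 2) K :=
  Matrix.GeneralLinearGroup.mkOfDetNeZero !![a, 0; 0, a⁻¹] (by simp [Matrix.det_fin_two, ha])

/-- `d(a) = diag(1, a)`. -/
def dK83 (a : K) (ha : a ≠ 0) : GL (Fin 2) K :=
  Matrix.GeneralLinearGroup.mkOfDetNeZero !![1, 0; 0, a] (by simp [Matrix.det_fin_two, ha])

@[simp] lemma coe_nK83 (b : K) : ((nK83 b : GL (Fin 2) K) : Matrix (Fin 2) (Fin 2) K)
    = !![1, b; 0, 1] := rfl

@[simp] lemma coe_wK83 : ((wK83 : GL (Fin 2) K) : Matrix (Fin 2) (Fin 2) K)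
    = !![0, 1; -1, 0] := rfl

@[simp] lemma coe_tK83 (a : K) (ha : a ≠ 0) :
    ((tK83 a ha : GL (Fin 2) K) : Matrix (Fin 2) (Fin 2) K) = !![a, 0; 0, a⁻¹] := rfl

@[simp] lemma coe_dK83 (a : K) (ha : a ≠ 0) :
    ((dK83 a ha : GL (Fin 2) K) : Matrix (Fin 2) (Fin 2) K) = !![1, 0; 0, a] := rfl

lemma coe_det83 (δ : GL (Fin 2) K) :
    ((Matrix.GeneralLinearGroup.det δ : Kˣ) : K)
      = (δ : Matrix (Fin 2) (Fin 2) K) 0 0 * (δ : Matrix (Fin 2) (Fin 2) K) 1 1
        - (δ : Matrix (Fin 2) (Fin 2) K) 0 1 * (δ : Matrix (Fin 2) (Fin 2) K) 1 0 := by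
  rw [← Matrix.det_fin_two]
  rfl

lemma det_nK83 (b : K) : Matrix.GeneralLinearGroup.det (nK83 b) = 1 := by
  apply Units.ext
  rw [coe_det83]
  simp

lemma det_wK83 : Matrix.GeneralLinearGroup.det (wK83 : GL (Fin 2) K) = 1 := by
  apply Units.ext
  rw [coe_det83]
  simp

lemma det_tK83 (a : K) (ha : a ≠ 0) : Matrix.GeneralLinearGroup.det (tK83 a ha) = 1 := by
  apply Units.ext
  rw [coe_det83]
  simp [ha]

/-! ## Their images in `GL₂(𝔸_K)` -/

lemma coe_ratG83 (δ : GL (Fin 2) K) (i j : Fin 2) :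
    ((ratG δ : A0.G K) : Matrix (Fin 2) (Fin 2) (A0.Adl K)) i j
      = algebraMap K (A0.Adl K) ((δ : Matrix (Fin 2) (Fin 2) K) i j) := rfl

lemma ratG_mul83 (δ δ' : GL (Fin 2) K) : (ratG (δ * δ') : A0.G K) = ratG δ * ratG δ' :=
  map_mul _ _ _

lemma ratG_inv83 (δ : GL (Fin 2) K) : (ratG δ⁻¹ : A0.G K) = (ratG δ)⁻¹ :=
  map_inv _ _

lemma det_ratG83 (δ : GL (Fin 2) K) :
    ((Matrix.GeneralLinearGroup.det (ratG δ : A0.G K) : (A0.Adl K)ˣ) : A0.Adl K)
      = algebraMap K (A0.Adl K) ((Matrix.GeneralLinearGroup.det δ : Kˣ) : K) := by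
  unfold ratG
  rw [Matrix.GeneralLinearGroup.map_det]
  rfl

lemma det_ratG_eq_one83 (δ : GL (Fin 2) K) (h : Matrix.GeneralLinearGroup.det δ = 1) :
    Matrix.GeneralLinearGroup.det (ratG δ : A0.G K) = 1 := by
  unfold ratG
  rw [Matrix.GeneralLinearGroup.map_det, h, map_one]

/-- Admissibility is preserved by left multiplication by an element of determinant one. -/
lemma adm_mul83 {t n : K} {g m : A0.G K} (h : Adm t n g m) (δ : GL (Fin 2) K)
    (hδ : Matrix.GeneralLinearGroup.det δ = 1) : Adm t n (ratG δ * g) m := by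
  refine ⟨h.1, ?_⟩
  rw [map_mul, det_ratG_eq_one83 δ hδ, one_mul, h.2]

/-- The adelic upper unipotent parametrisation. -/
def nA83 (x : A0.Adl K) : A0.G K :=
  ⟨!![1, x; 0, 1], !![1, -x; 0, 1],
    by ext i j; fin_cases i <;> fin_cases j <;> simp [Matrix.mul_apply, Fin.sum_univ_two],
    by ext i j; fin_cases i <;> fin_cases j <;> simp [Matrix.mul_apply, Fin.sum_univ_two]⟩

lemma isUpperUnip_nA83 : IsUpperUnip (nA83 (K := K)) := fun _ => rfl

lemma ratG_nK83 (b : K) : (ratG (nK83 b) : A0.G K) = nA83 (algebraMap K (A0.Adl K) b) := by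
  apply Matrix.GeneralLinearGroup.ext
  intro i j
  rw [coe_ratG83]
  fin_cases i <;> fin_cases j <;> simp [nA83]

lemma isWeyl_ratG83 : IsWeyl (ratG (wK83 : GL (Fin 2) K) : A0.G K) := by
  unfold IsWeyl
  ext i j
  rw [coe_ratG83]
  fin_cases i <;> fin_cases j <;> simp

lemma isDiagSL_ratG83 (a : K) (ha : a ≠ 0) : IsDiagSL (ratG (tK83 a ha) : A0.G K) a := by
  unfold IsDiagSL
  ext i j
  rw [coe_ratG83]
  fin_cases i <;> fin_cases j <;> simp

lemma isDiagOne_ratG83 (a : K) (ha : a ≠ 0) : IsDiagOne (ratG (dK83 a ha) : A0.G K) a := by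
  unfold IsDiagOne
  ext i j
  rw [coe_ratG83]
  fin_cases i <;> fin_cases j <;> simp

/-! ## The action on `K²` -/

/-- The natural action of `GL₂(K)` on `K²` (column vectors). -/
def actK83 (δ : GL (Fin 2) K) (ξ : K × K) : K × K :=
  ((δ : Matrix (Fin 2) (Fin 2) K) 0 0 * ξ.1 + (δ : Matrix (Fin 2) (Fin 2) K) 0 1 * ξ.2,
    (δ : Matrix (Fin 2) (Fin 2) K) 1 0 * ξ.1 + (δ : Matrix (Fin 2) (Fin 2) K) 1 1 * ξ.2)

lemma actK83_one (ξ : K × K) : actK83 1 ξ = ξ := by
  simp [actK83]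

lemma actK83_mul (δ δ' : GL (Fin 2) K) (ξ : K × K) :
    actK83 (δ * δ') ξ = actK83 δ (actK83 δ' ξ) := by
  simp only [actK83, Matrix.GeneralLinearGroup.coe_mul, Matrix.mul_apply, Fin.sum_univ_two]
  ext <;> simp only <;> ring

/-- `ξ ↦ δ ξ` as a permutation of `K²`. -/
def actEquiv83 (δ : GL (Fin 2) K) : K × K ≃ K × K where
  toFun := actK83 δ
  invFun := actK83 δ⁻¹
  left_inv ξ := by rw [← actK83_mul, inv_mul_cancel, actK83_one]
  right_inv ξ := by rw [← actK83_mul, mul_inv_cancel, actK83_one]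

lemma actV_ratG83 (δ : GL (Fin 2) K) (ξ : K × K) :
    actV (ratG δ : A0.G K) (ratV ξ) = ratV (actK83 δ ξ) := by
  simp only [actV, ratV, actK83, coe_ratG83, map_add, map_mul]

lemma smul_ratV83 (a : K) (ξ : K × K) :
    algebraMap K (A0.Adl K) a • (ratV ξ : A0.Adl K × A0.Adl K) = ratV (a • ξ) := by
  simp only [ratV, Prod.smul_mk, smul_eq_mul, map_mul, Prod.smul_fst, Prod.smul_snd]

lemma qf_ratV83 (t n : K) (ξ : K × K) :
    qf t n (ratV ξ) = algebraMap K (A0.Adl K) (ξ.1 ^ 2 + t * ξ.1 * ξ.2 + n * ξ.2 ^ 2) := by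
  simp only [qf, ratV, map_add, map_mul, map_pow]

/-! ## Invariance under the generators -/

section Generators

variable (D : KData K)

/-- Invariance under `n(b)`, `b ∈ K`. -/
lemma theta_unip83 (hD : D.Good) (b : K) {g m : A0.G K} (h : Adm D.t D.n g m) :
    D.theta (ratG (nK83 b) * g) m = D.theta g m := by
  unfold KData.theta
  refine tsum_congr fun ξ => ?_
  rw [ratG_nK83, hD.weil.unip nA83 isUpperUnip_nA83 _ g m (ratV ξ) h, qf_ratV83, ← map_mul,
    hD.char.triv, one_mul]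

/-- Invariance under `t(a)`, `a ∈ K^×`. -/
lemma theta_diag83 (hD : D.Good) (a : K) (ha : a ≠ 0) {g m : A0.G K} (h : Adm D.t D.n g m) :
    D.theta (ratG (tK83 a ha) * g) m = D.theta g m := by
  unfold KData.theta
  have h1 : ∀ ξ : K × K, D.F (ratG (tK83 a ha) * g) m (ratV ξ)
      = D.F g m (ratV ((MulAction.toPerm (Units.mk0 a ha) : Equiv.Perm (K × K)) ξ)) := by
    intro ξ
    rw [hD.weil.diagK _ a ha (isDiagSL_ratG83 a ha) g m (ratV ξ) h, smul_ratV83]
    rfl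
  rw [tsum_congr h1]
  exact Equiv.tsum_eq (MulAction.toPerm (Units.mk0 a ha) : Equiv.Perm (K × K))
    (fun ξ => D.F g m (ratV ξ))

lemma disc_ne_zero83 {t n : K} (h : ∀ x : K, x ^ 2 - t * x + n ≠ 0) : t ^ 2 - 4 * n ≠ 0 := by
  intro h0
  apply h (t / 2)
  have h2 : (2 : K) ≠ 0 := two_ne_zero
  field_simp
  linear_combination -h0

/-- Invariance under `w`: Poisson summation. -/
lemma theta_weyl83 (hP : Poisson2C) (hD : D.Good) {g m : A0.G K} (h : Adm D.t D.n g m) :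
    D.theta (ratG wK83 * g) m = D.theta g m := by
  have hw : Adm D.t D.n (ratG wK83 * g) m := adm_mul83 h wK83 det_wK83
  have h1 : ∀ ξ : K × K, D.F (ratG wK83 * g) m (ratV ξ)
      = integral2 D.μ fun y => D.F g m y * D.ψ (bf D.t D.n (ratV ξ) y) := fun ξ =>
    hD.weil.weyl _ isWeyl_ratG83 g m (ratV ξ) h
  have hsum : Summable fun ξ : K × K =>
      ‖integral2 D.μ fun y => D.F g m y * D.ψ (bf D.t D.n (ratV ξ) y)‖ := by
    obtain ⟨b, hb, hle⟩ := hD.regular.shift_summable (ratG wK83 * g) m hw {0} isCompact_singleton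
    refine Summable.of_nonneg_of_le (fun _ => norm_nonneg _) (fun ξ => ?_) hb
    rw [← h1 ξ]
    have := hle ξ 0 (Set.mem_singleton 0)
    rwa [zero_add] at this
  have hPo := hP K D.t D.n (disc_ne_zero83 hD.torus.irred) D.ψ hD.char D.μ hD.measured.covol
    (D.F g m) (hD.regular.cont g m h) (hD.regular.integrable g m h)
    (hD.regular.shift_summable g m h) hsum
  unfold KData.theta
  rw [tsum_congr h1, ← hPo]

end Generators

/-! ## Bruhat decomposition of `SL₂(K)` -/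

lemma bruhat83 (δ : GL (Fin 2) K) (hδ : Matrix.GeneralLinearGroup.det δ = 1) :
    (∃ (x s : K) (hs : s ≠ 0), δ = nK83 x * tK83 s hs) ∨
    ∃ (x y s : K) (hs : s ≠ 0), δ = nK83 x * (wK83 * (tK83 s hs * nK83 y)) := by
  have hdet : (δ : Matrix (Fin 2) (Fin 2) K) 0 0 * (δ : Matrix (Fin 2) (Fin 2) K) 1 1
      - (δ : Matrix (Fin 2) (Fin 2) K) 0 1 * (δ : Matrix (Fin 2) (Fin 2) K) 1 0 = 1 := by
    rw [← coe_det83, hδ]
    rfl
  set a := (δ : Matrix (Fin 2) (Fin 2) K) 0 0 with ha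
  set b := (δ : Matrix (Fin 2) (Fin 2) K) 0 1 with hb
  set c := (δ : Matrix (Fin 2) (Fin 2) K) 1 0 with hc
  set d := (δ : Matrix (Fin 2) (Fin 2) K) 1 1 with hd
  by_cases hc0 : c = 0
  · left
    have had : a * d = 1 := by
      rw [hc0, mul_zero, sub_zero] at hdet
      exact hdet
    have ha0 : a ≠ 0 := left_ne_zero_of_mul_eq_one had
    have hd' : d = a⁻¹ := eq_inv_of_mul_eq_one_right had
    refine ⟨b * a, a, ha0, ?_⟩
    apply Matrix.GeneralLinearGroup.ext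
    intro i j
    fin_cases i <;> fin_cases j <;>
      simp [Matrix.GeneralLinearGroup.coe_mul, Matrix.mul_apply, Fin.sum_univ_two,
        ← ha, ← hb, ← hc, ← hd, hc0, hd', ha0]
  · right
    have hnc : -c ≠ 0 := neg_ne_zero.mpr hc0
    refine ⟨a / c, d / c, -c, hnc, ?_⟩
    apply Matrix.GeneralLinearGroup.ext
    intro i j
    fin_cases i <;> fin_cases j <;>
      simp [Matrix.GeneralLinearGroup.coe_mul, Matrix.mul_apply, Fin.sum_univ_two,
        ← ha, ← hb, ← hc, ← hd]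
    · field_simp
    · field_simp
      linear_combination -hdet
    · field_simp

/-! ## Invariance under `SL₂(K)` and under the rational admissible pairs -/

lemma theta_sl83 (hP : Poisson2C) (D : KData K) (hD : D.Good) (δ : GL (Fin 2) K)
    (hδ : Matrix.GeneralLinearGroup.det δ = 1) {g m : A0.G K} (h : Adm D.t D.n g m) :
    D.theta (ratG δ * g) m = D.theta g m := by
  rcases bruhat83 δ hδ with ⟨x, s, hs, rfl⟩ | ⟨x, y, s, hs, rfl⟩
  · rw [ratG_mul83, mul_assoc,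
      theta_unip83 D hD x (adm_mul83 h _ (det_tK83 s hs)), theta_diag83 D hD s hs h]
  · have h1 : Adm D.t D.n (ratG (nK83 y) * g) m := adm_mul83 h _ (det_nK83 y)
    have h2 : Adm D.t D.n (ratG (tK83 s hs) * (ratG (nK83 y) * g)) m :=
      adm_mul83 h1 _ (det_tK83 s hs)
    have h3 : Adm D.t D.n (ratG wK83 * (ratG (tK83 s hs) * (ratG (nK83 y) * g))) m :=
      adm_mul83 h2 _ det_wK83
    rw [ratG_mul83, ratG_mul83, ratG_mul83, mul_assoc, mul_assoc, mul_assoc,
      theta_unip83 D hD x h3, theta_weyl83 D hP hD h2, theta_diag83 D hD s hs h1,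
      theta_unip83 D hD y h]

/-- An element of `T(K)` is the image of an element of `GL₂(K)`. -/
lemma exists_ratG_of_inTorusRat83 {t n : K} {y : A0.G K} (hy : InTorusRat t n y) :
    ∃ δ : GL (Fin 2) K, y = ratG δ := by
  obtain ⟨a, b, hab⟩ := hy
  have hinj : Function.Injective (algebraMap K (A0.Adl K)) :=
    NumberField.AdeleRing.algebraMap_injective (𝓞 K) K
  have : Nontrivial (A0.Adl K) := hinj.nontrivial
  have hM : (y : Matrix (Fin 2) (Fin 2) (A0.Adl K))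
      = (torMat t n a b : Matrix (Fin 2) (Fin 2) K).map (algebraMap K (A0.Adl K)) := by
    rw [hab]
    ext i j
    fin_cases i <;> fin_cases j <;> simp [torMat]
  have hdet : (torMat t n a b : Matrix (Fin 2) (Fin 2) K).det ≠ 0 := by
    intro h0
    have h1 : (y : Matrix (Fin 2) (Fin 2) (A0.Adl K)).det = 0 := by
      rw [hM, ← RingHom.mapMatrix_apply, ← RingHom.map_det, h0, map_zero]
    exact Matrix.GeneralLinearGroup.det_ne_zero y h1
  refine ⟨Matrix.GeneralLinearGroup.mkOfDetNeZero _ hdet, ?_⟩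
  apply Matrix.GeneralLinearGroup.ext
  intro i j
  rw [coe_ratG83, hM]
  rfl

/-- **A2.06 THETA-INV** (helper83), VERBATIM. -/
theorem thetaInvC_h83 : ThetaInvC := by
  intro hP K _ _ D hD γ y g m hy hdet h
  obtain ⟨δ, rfl⟩ := exists_ratG_of_inTorusRat83 hy
  have hinj : Function.Injective (algebraMap K (A0.Adl K)) :=
    NumberField.AdeleRing.algebraMap_injective (𝓞 K) K
  -- `a = det γ = det δ`
  set a : K := ((Matrix.GeneralLinearGroup.det γ : Kˣ) : K) with ha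
  have ha0 : a ≠ 0 := (Matrix.GeneralLinearGroup.det γ).ne_zero
  have hdetδ : ((Matrix.GeneralLinearGroup.det (ratG δ : A0.G K) : (A0.Adl K)ˣ) : A0.Adl K)
      = algebraMap K (A0.Adl K) a := by
    rw [← hdet, det_ratG83]
  -- `γ = d(a) γ₁`, `γ₁ ∈ SL₂(K)`
  set γ₁ : GL (Fin 2) K := (dK83 a ha0)⁻¹ * γ with hγ₁
  have hγ : γ = dK83 a ha0 * γ₁ := by rw [hγ₁, mul_inv_cancel_left]
  have hdetd : Matrix.GeneralLinearGroup.det (dK83 a ha0) = Matrix.GeneralLinearGroup.det γ := by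
    apply Units.ext
    rw [coe_det83]
    simp [ha]
  have hγ₁det : Matrix.GeneralLinearGroup.det γ₁ = 1 := by
    rw [hγ₁, map_mul, map_inv, hdetd, inv_mul_cancel]
  have h1 : Adm D.t D.n (ratG γ₁ * g) m := adm_mul83 h γ₁ hγ₁det
  have key : ∀ ξ : K × K, D.F (ratG γ * g) (ratG δ * m) (ratV ξ)
      = D.F (ratG γ₁ * g) m (ratV ((actEquiv83 δ⁻¹) ξ)) := by
    intro ξ
    rw [hγ, ratG_mul83, mul_assoc,
      hD.weil.torK (ratG δ) (ratG (dK83 a ha0)) a hy hdetδ (isDiagOne_ratG83 a ha0)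
        (ratG γ₁ * g) m (ratV ξ) h1, ← ratG_inv83, actV_ratG83]
    rfl
  unfold KData.theta
  rw [tsum_congr key, Equiv.tsum_eq (actEquiv83 δ⁻¹) (fun ξ => D.F (ratG γ₁ * g) m (ratV ξ))]
  exact theta_sl83 hP D hD γ₁ hγ₁det h

end Fermat.Agent.LT.A2.H83

end
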