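import Fermat.Agent.LT.A2.H54.LocFinSpec

/-!
# Row LT, tower A2, station LOC-FIN (cut LF54 of helper54): a small toolkit (helper83), OFF-MAIN

For a normed field `k` with an ultrametric distance (`k = K_v`):

* `psi_locConst83`: a continuous unitary character of `k` is locally constant
  (it is trivial on a ball, a subgroup; a subgroup of the circle inside `‖z - 1‖ < 1` is trivial);
* `IsSB` is stable under multiplication by locally constant functions and under substitution of
  a homeomorphism (`isSB_mul_left83`, `isSB_mul_right83`, `isSB_comp_smul83`);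
* `intL` : constants, congruence, and the dilation `y ↦ a • y` from `CovP`.

Mathlib + the Spec closure only.
-/

set_option autoImplicit false
set_option linter.unusedSectionVars false
set_option linter.unusedSimpArgs false
set_option linter.style.haveILetI false

open IsDedekindDomain NumberField MeasureTheory
open scoped Topology

noncomputable section

namespace Fermat.Agent.LT.A2.H83

open Fermat.Agent.LT.A2 Fermat.Agent.LT.A2.WX467 Fermat.Agent.LT.A2.LF54

section Circle

/-- A sequence on the unit circle with `z (m + 1) = z m ^ 2` which stays in `‖z - 1‖ < 1`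
is constant equal to `1`. -/
theorem circle_rigid83 (z : ℕ → ℂ) (hz : ∀ m, ‖z m‖ = 1) (hsq : ∀ m, z (m + 1) = z m ^ 2)
    (hnear : ∀ m, ‖z m - 1‖ < 1) : z 0 = 1 := by
  have hnorm : ∀ m, (z m).re ^ 2 + (z m).im ^ 2 = 1 := by
    intro m
    have h1 := hz m
    have h2 : ‖z m‖ ^ 2 = 1 := by rw [h1]; norm_num
    rw [Complex.sq_norm, Complex.normSq_apply] at h2
    nlinarith [h2]
  have hlt : ∀ m, 1 - (z m).re < 1 / 2 := by
    intro m
    have h1 := hnear m
    have h2 : ‖z m - 1‖ ^ 2 < 1 := by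
      have h0 : 0 ≤ ‖z m - 1‖ := norm_nonneg _
      nlinarith
    rw [Complex.sq_norm, Complex.normSq_apply] at h2
    simp only [Complex.sub_re, Complex.one_re, Complex.sub_im, Complex.one_im, sub_zero] at h2
    nlinarith [hnorm m]
  have hge : ∀ m, 0 ≤ 1 - (z m).re := by
    intro m
    nlinarith [hnorm m, sq_nonneg (z m).im, sq_nonneg ((z m).re - 1), sq_nonneg ((z m).re + 1)]
  have hstep : ∀ m, 3 * (1 - (z m).re) ≤ 1 - (z (m + 1)).re := by
    intro m
    have h1 : (z (m + 1)).re = (z m).re ^ 2 - (z m).im ^ 2 := by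
      rw [hsq m, pow_two, Complex.mul_re]
      ring
    rw [h1]
    nlinarith [hnorm m, hlt m, hge m]
  have hpow : ∀ m, 3 ^ m * (1 - (z 0).re) ≤ 1 - (z m).re := by
    intro m
    induction m with
    | zero => simp
    | succ m ih =>
      calc 3 ^ (m + 1) * (1 - (z 0).re) = 3 * (3 ^ m * (1 - (z 0).re)) := by ring
        _ ≤ 3 * (1 - (z m).re) := by linarith
        _ ≤ 1 - (z (m + 1)).re := hstep m
  have hzero : 1 - (z 0).re ≤ 0 := by
    by_contra hcon
    push Not at hcon
    obtain ⟨N, hN⟩ := exists_nat_gt (1 / (1 - (z 0).re))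
    have h3 : (N : ℝ) ≤ 3 ^ N := by
      have : (N : ℝ) < 2 ^ N := by exact_mod_cast Nat.lt_two_pow_self
      have h23 : (2 : ℝ) ^ N ≤ 3 ^ N := pow_le_pow_left₀ (by norm_num) (by norm_num) N
      linarith
    have h4 : 1 < (N : ℝ) * (1 - (z 0).re) := by
      rw [div_lt_iff₀ hcon] at hN
      exact hN
    have h5 := hpow N
    have h6 := hlt N
    nlinarith
  have hre : (z 0).re = 1 := by
    have := hge 0
    linarith
  have him : (z 0).im = 0 := by
    have := hnorm 0
    rw [hre] at this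
    nlinarith
  exact Complex.ext (by rw [hre]; rfl) (by rw [him]; rfl)

end Circle

section Psi

variable {k : Type} [NormedField k] [IsUltrametricDist k]

/-- `‖m • x‖ ≤ ‖x‖` in an ultrametric normed field. -/
theorem norm_two_pow_mul_le83 (m : ℕ) (x : k) : ‖(2 : k) ^ m * x‖ ≤ ‖x‖ := by
  rw [norm_mul, norm_pow]
  have h2 : ‖(2 : k)‖ ≤ 1 := by
    have := IsUltrametricDist.norm_natCast_le_one k 2
    simpa using this
  calc ‖(2 : k)‖ ^ m * ‖x‖ ≤ 1 * ‖x‖ :=
        mul_le_mul_of_nonneg_right (pow_le_one₀ (norm_nonneg _) h2) (norm_nonneg _)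
    _ = ‖x‖ := one_mul _

/-- A continuous unitary character of `k` is trivial on a ball. -/
theorem psi_eq_one_near83 (ψ : k → ℂ) (hc : Continuous ψ)
    (hadd : ∀ x y : k, ψ (x + y) = ψ x * ψ y) (hnorm : ∀ x : k, ‖ψ x‖ = 1) :
    ∃ ε : ℝ, 0 < ε ∧ ∀ x : k, ‖x‖ < ε → ψ x = 1 := by
  have h0 : ψ 0 = 1 := by
    have h1 := hadd 0 0
    rw [add_zero] at h1
    have h2 : ψ 0 ≠ 0 := by
      intro h
      have := hnorm 0
      rw [h, norm_zero] at this
      exact zero_ne_one this
    have h3 : ψ 0 * 1 = ψ 0 * ψ 0 := by rw [mul_one]; exact h1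
    exact (mul_left_cancel₀ h2 h3).symm
  have hcont : ContinuousAt ψ 0 := hc.continuousAt
  rw [Metric.continuousAt_iff] at hcont
  obtain ⟨ε, hε, hball⟩ := hcont 1 one_pos
  refine ⟨ε, hε, fun x hx => ?_⟩
  have hpow : ∀ m : ℕ, ψ ((2 : k) ^ (m + 1) * x) = ψ ((2 : k) ^ m * x) ^ 2 := by
    intro m
    rw [pow_two, ← hadd]
    congr 1
    ring
  have key := circle_rigid83 (fun m => ψ ((2 : k) ^ m * x)) (fun m => hnorm _) hpow
    (fun m => by
      have h1 : dist ((2 : k) ^ m * x) 0 < ε := by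
        rw [dist_zero_right]
        exact lt_of_le_of_lt (norm_two_pow_mul_le83 m x) hx
      have h2 := hball h1
      rw [h0, dist_eq_norm] at h2
      exact h2)
  simpa using key

/-- A continuous unitary character of `k` is locally constant. -/
theorem psi_locConst83 (ψ : k → ℂ) (hc : Continuous ψ)
    (hadd : ∀ x y : k, ψ (x + y) = ψ x * ψ y) (hnorm : ∀ x : k, ‖ψ x‖ = 1) :
    IsLocallyConstant ψ := by
  obtain ⟨ε, hε, h1⟩ := psi_eq_one_near83 ψ hc hadd hnorm
  rw [IsLocallyConstant.iff_exists_open]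
  intro x
  refine ⟨Metric.ball x ε, Metric.isOpen_ball, Metric.mem_ball_self hε, fun y hy => ?_⟩
  have h2 : ψ y = ψ (x + (y - x)) := by congr 1; ring
  rw [h2, hadd, h1 (y - x) (by rw [← dist_eq_norm]; exact hy), mul_one]

/-- `ψ 0 = 1`. -/
theorem psi_zero83 (ψ : k → ℂ) (hadd : ∀ x y : k, ψ (x + y) = ψ x * ψ y)
    (hnorm : ∀ x : k, ‖ψ x‖ = 1) : ψ 0 = 1 := by
  have h1 := hadd 0 0
  rw [add_zero] at h1
  have h2 : ψ 0 ≠ 0 := by
    intro h
    have := hnorm 0
    rw [h, norm_zero] at this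
    exact zero_ne_one this
  have h3 : ψ 0 * 1 = ψ 0 * ψ 0 := by rw [mul_one]; exact h1
  exact (mul_left_cancel₀ h2 h3).symm

end Psi

section SB

variable {k : Type} [NormedField k]

/-- `IsSB` is stable under multiplication on the left by a locally constant function. -/
theorem isSB_mul_left83 {Φ : k × k → ℂ} (hΦ : LF54.IsSB Φ) {g : k × k → ℂ}
    (hg : IsLocallyConstant g) : LF54.IsSB (fun y => g y * Φ y) := by
  refine ⟨?_, ?_⟩
  · exact hg.mul hΦ.1
  · exact hΦ.2.mul_left

/-- `IsSB` is stable under multiplication on the right by a locally constant function. -/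
theorem isSB_mul_right83 {Φ : k × k → ℂ} (hΦ : LF54.IsSB Φ) {g : k × k → ℂ}
    (hg : IsLocallyConstant g) : LF54.IsSB (fun y => Φ y * g y) := by
  refine ⟨?_, ?_⟩
  · exact hΦ.1.mul hg
  · exact hΦ.2.mul_right

/-- `IsSB` is stable under the dilations. -/
theorem isSB_comp_smul83 {Φ : k × k → ℂ} (hΦ : LF54.IsSB Φ) {a : k} (ha : a ≠ 0) :
    LF54.IsSB (fun y => Φ (a • y)) := by
  refine ⟨?_, ?_⟩
  · exact hΦ.1.comp_continuous (continuous_const_smul a)
  · exact hΦ.2.comp_homeomorph (Homeomorph.smulOfNeZero a ha)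

/-- `ψ ∘ P` is locally constant for `P` continuous. -/
theorem locConst_psi_comp83 [IsUltrametricDist k] {ψ : k → ℂ} (hψ : WX467.IsCharL ψ)
    {P : k × k → k} (hP : Continuous P) : IsLocallyConstant (fun y => ψ (P y)) :=
  (psi_locConst83 ψ hψ.1 hψ.2.1 hψ.2.2.1).comp_continuous hP

theorem continuous_qfL83 (t n : k) : Continuous (qfL t n) := by
  unfold qfL
  fun_prop

theorem continuous_bfL_right83 (t n : k) (ξ : k × k) : Continuous (fun y => bfL t n ξ y) := by
  unfold bfL qfL
  fun_prop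

end SB

section Int

variable {k : Type} [NormedField k]

theorem intL_const_mul83 (μ : @Measure k (borel k)) (c : ℂ) (f : k × k → ℂ) :
    intL μ (fun y => c * f y) = c * intL μ f := by
  unfold intL
  exact MeasureTheory.integral_const_mul c f

theorem intL_congr83 (μ : @Measure k (borel k)) {f g : k × k → ℂ} (h : ∀ y, f y = g y) :
    intL μ f = intL μ g := by
  have : f = g := funext h
  rw [this]

/-- The dilation `y ↦ a • y` from `CovP`: `∫ f(a y) dy = ‖a‖⁻² ∫ f`. -/
theorem intL_smul83 {μ : @Measure k (borel k)} (hcov : CovP μ) {a : k} (ha : a ≠ 0)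
    {f : k × k → ℂ} (hf : LF54.IsSB f) :
    intL μ (fun y => f (a • y)) = (((‖a‖ ^ 2)⁻¹ : ℝ) : ℂ) * intL μ f := by
  have hdet : (!![a, 0; 0, a] : Matrix (Fin 2) (Fin 2) k).det = a ^ 2 := by
    rw [Matrix.det_fin_two_of]; ring
  have h := hcov (!![a, 0; 0, a]) (by rw [hdet]; exact pow_ne_zero 2 ha) f hf
  rw [hdet, norm_pow] at h
  rw [← h]
  apply intL_congr83
  intro y
  congr 1
  unfold actL
  ext <;> simp

end Int

end Fermat.Agent.LT.A2.H83

end
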