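import Fermat.Agent.LT.A2.Kernel

/-!
# Row LT, tower A2, leaf A2.02 `TorusCharC` -- a PROPOSED CUT (helper83), OFF-MAIN

Definitions and Props only (no `sorry`, nothing assumed).  Owner of A2.02: helper456; this file
is an offer, to be used or ignored.

## The construction

`L = K ⊕ K ω`, `ω² - t ω + n = 0` (`IsGen83`).  With a continuous ring homomorphism
`ι : 𝔸_K^f → 𝔸_L^f` (`BaseChangeC83`) put, for `m = a + b M_ω ∈ T(𝔸_K)`,

    Θ(m) = (1_∞ , ι(a_f) + ι(b_f) ω)  ∈ 𝔸_L^×,        χT(m) = χ(Θ(m)).

The infinite components are DROPPED: a character of finite order is trivial on the ideles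
supported at the infinite places of a totally complex field (`InfTrivC83`: every element of
`ℂ^×` is an `n`-th power; no topology).  Then

* `mul`, `one`, `fin_order`: `ι` is a ring homomorphism and `ω² = t ω - n`;
* `cont`: `ι` and the entries of `m`, `m⁻¹` are continuous;
* `rat`: `Θ(m)` = principal idele of `a + b ω` times an idele supported at infinity;
* `nontriv`: `NormOneEltC83` at the witness of `NotGaloisInvariant`;
* dictionary: `𝔡 = (t² - 4n) · ∏_{w ∈ S} (w ∩ 𝓞_K)`, `S` = the places where `χ` is ramified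
  (`UnramFiniteC83`); at `v ∤ 𝔡`: `SplitEltC83` (two places over `v`) and `InertC83` (one place
  over `v`), with elements of `T(𝔸_K)` supported at `v` whose component is a RATIONAL matrix
  (so that only the values of `ι` at adeles with a rational component are needed:
  the last clause of `BaseChangeC83`).

## The leaves

| Prop | content | needs | est. |
|---|---|---|---|
| `GenC83` | `[L : K] = 2` ⟹ integral generator `ω`, `t`, `n` | Mathlib | 200 |
| `LocalMapC83` | `w ∣ v` ⟹ continuous `K_v → L_w` over `K → L`, integers to integers | Mathlib | 700 |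
| `BaseChangeC83` | `LocalMapC83` ⟹ `ι` (restricted product) | Mathlib | 500 |
| `InfTrivC83` | finite order ⟹ trivial on ideles supported at infinity (tot. complex) | Mathlib | 250 |
| `UnramFiniteC83` | continuous of finite order ⟹ unramified outside a finite set | Mathlib | 400 |
| `IntUpC83` | `x ∈ K` integral at `v`, `w ∣ v` ⟹ integral at `w` | Mathlib | 100 |
| `NormOneEltC83` | `w₁ ≠ w₂` over `v` ⟹ `β`, `N β = 1`, `w₁(β) = 1`, `w₂(β) = -1` | Mathlib | 600 |
| `SplitEltC83` | the same at `v ∤ (t² - 4n)`: `α` with integral coordinates, `v(Nα) = 1` | Mathlib | 800 |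
| `InertC83` | one place over `v ∤ (t² - 4n)`: `v(Q(x,y)) ≠ 1` on `𝒪_v²`, `e = 1` | Mathlib | 800 |
-/

set_option autoImplicit false

open IsDedekindDomain NumberField AutomorphicForm
open scoped MatrixGroups

noncomputable section

namespace Fermat.Agent.LT.A2.H83

open Fermat.Agent.LT.H130 Fermat.Agent.LT.H556 Fermat.Agent.LT.A2

section Defs

variable (K L : Type) [Field K] [NumberField K] [Field L] [NumberField L] [Algebra K L]

/-- `a + b ω ∈ L`. -/
def elt83 {K L : Type} [Field K] [Field L] [Algebra K L] (ω : L) (a b : K) : L :=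
  algebraMap K L a + algebraMap K L b * ω

/-- `ω` is an integral generator of `L / K` with `ω² - t ω + n = 0`. -/
structure IsGen83 (t n : K) (ω : L) : Prop where
  int_t : IsIntegral ℤ t
  int_n : IsIntegral ℤ n
  int_ω : IsIntegral ℤ ω
  rel : ω ^ 2 - algebraMap K L t * ω + algebraMap K L n = 0
  irred : ∀ x : K, x ^ 2 - t * x + n ≠ 0

/-- `x ∈ K` is integral at `v`. -/
def IntAt83 {K : Type} [Field K] [NumberField K] (v : HeightOneSpectrum (𝓞 K)) (x : K) : Prop :=
  Valued.v (algebraMap K (v.adicCompletion K) x) ≤ 1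

/-- The valuation at `v` of `x ∈ K`, read in the completion. -/
def val83 {K : Type} [Field K] [NumberField K] (v : HeightOneSpectrum (𝓞 K)) (x : K) :
    WithZero (Multiplicative ℤ) :=
  Valued.v (algebraMap K (v.adicCompletion K) x)

end Defs

section Leaves

/-- **GEN.**  A quadratic extension has an integral generator. -/
def GenC83 : Prop :=
  ∀ (K L : Type) [Field K] [NumberField K] [Field L] [NumberField L] [Algebra K L],
    Module.finrank K L = 2 → ∃ (t n : K) (ω : L), IsGen83 K L t n ω

/-- **LOCAL-MAP.**  For a place `w` of `L` over the place `v` of `K` there is a continuous ring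
homomorphism `K_v → L_w` extending `K → L`, mapping `𝒪_v` into `𝒪_w`. -/
def LocalMapC83 : Prop :=
  ∀ (K L : Type) [Field K] [NumberField K] [Field L] [NumberField L] [Algebra K L]
    (v : HeightOneSpectrum (𝓞 K)) (w : HeightOneSpectrum (𝓞 L)), LiesOverPl K w v →
    ∃ σ : v.adicCompletion K →+* w.adicCompletion L, Continuous σ ∧
      (∀ x : K, σ (algebraMap K (v.adicCompletion K) x)
        = algebraMap L (w.adicCompletion L) (algebraMap K L x)) ∧
      ∀ y : v.adicCompletion K, Valued.v y ≤ 1 → Valued.v (σ y) ≤ 1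

/-- **BASE-CHANGE (finite adeles).**  There is a continuous ring homomorphism
`ι : 𝔸_K^f → 𝔸_L^f` whose component at `w` is rational as soon as the component of the argument
at the place `v` under `w` is rational. -/
def BaseChangeC83 : Prop :=
  ∀ (K L : Type) [Field K] [NumberField K] [Field L] [NumberField L] [Algebra K L],
    ∃ ι : FiniteAdeleRing (𝓞 K) K →+* FiniteAdeleRing (𝓞 L) L, Continuous ι ∧
      ∀ (a : FiniteAdeleRing (𝓞 K) K) (v : HeightOneSpectrum (𝓞 K))
        (w : HeightOneSpectrum (𝓞 L)) (x : K), LiesOverPl K w v →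
        a v = algebraMap K (v.adicCompletion K) x →
        ι a w = algebraMap L (w.adicCompletion L) (algebraMap K L x)

/-- **INF-TRIV.**  A character of finite order of the idele group of a totally complex field is
trivial on the ideles whose finite components are `1`. -/
def InfTrivC83 : Prop :=
  ∀ (L : Type) [Field L] [NumberField L], (∀ u : InfinitePlace L, u.IsComplex) →
    ∀ χ : (A0.Adl L)ˣ →* ℂˣ, IsFiniteOrder χ →
      ∀ z : (A0.Adl L)ˣ, (∀ w : HeightOneSpectrum (𝓞 L), (z : A0.Adl L).2 w = 1) → χ z = 1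

/-- **UNRAM-FINITE.**  A continuous character of finite order of the idele group is unramified
outside a finite set of places. -/
def UnramFiniteC83 : Prop :=
  ∀ (L : Type) [Field L] [NumberField L] (χ : (A0.Adl L)ˣ →* ℂˣ),
    Continuous χ → IsFiniteOrder χ →
    ∃ S : Finset (HeightOneSpectrum (𝓞 L)), ∀ w : HeightOneSpectrum (𝓞 L), w ∉ S → UnramAt χ w

/-- **INT-UP.**  An element of `K` integral at `v` is integral at every `w` over `v`. -/
def IntUpC83 : Prop :=
  ∀ (K L : Type) [Field K] [NumberField K] [Field L] [NumberField L] [Algebra K L]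
    (v : HeightOneSpectrum (𝓞 K)) (w : HeightOneSpectrum (𝓞 L)), LiesOverPl K w v →
    ∀ x : K, IntAt83 v x → IntAt83 w (algebraMap K L x)

/-- **NORM-ONE-ELT.**  If `w₁ ≠ w₂` lie over `v` there are no other places over `v`, and there is
`β = a + b ω` of norm `1` with `w₁(β) = 1`, `w₂(β) = -1`. -/
def NormOneEltC83 : Prop :=
  ∀ (K L : Type) [Field K] [NumberField K] [Field L] [NumberField L] [Algebra K L]
    (t n : K) (ω : L), Module.finrank K L = 2 → IsGen83 K L t n ω →
    ∀ (v : HeightOneSpectrum (𝓞 K)) (w₁ w₂ : HeightOneSpectrum (𝓞 L)), w₁ ≠ w₂ →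
      LiesOverPl K w₁ v → LiesOverPl K w₂ v →
      (∀ w' : HeightOneSpectrum (𝓞 L), LiesOverPl K w' v → w' = w₁ ∨ w' = w₂) ∧
      ∃ a b : K, a ^ 2 + t * a * b + n * b ^ 2 = 1 ∧
        val83 w₁ (elt83 ω a b) = WithZero.exp (-1 : ℤ) ∧
        val83 w₂ (elt83 ω a b) = WithZero.exp (1 : ℤ)

/-- **SPLIT-ELT.**  At a place `v ∤ (t² - 4n)` with two places `w₁ ≠ w₂` over it there is
`α = a + b ω` with `a`, `b` integral at `v`, `v(N α) = 1`, `w₁(α) = 1`, `w₂(α) = 0`. -/
def SplitEltC83 : Prop :=
  ∀ (K L : Type) [Field K] [NumberField K] [Field L] [NumberField L] [Algebra K L]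
    (t n : K) (ω : L), Module.finrank K L = 2 → IsGen83 K L t n ω →
    ∀ (v : HeightOneSpectrum (𝓞 K)) (w₁ w₂ : HeightOneSpectrum (𝓞 L)), w₁ ≠ w₂ →
      LiesOverPl K w₁ v → LiesOverPl K w₂ v → val83 v (t ^ 2 - 4 * n) = 1 →
      ∃ a b : K, IntAt83 v a ∧ IntAt83 v b ∧
        val83 v (a ^ 2 + t * a * b + n * b ^ 2) = WithZero.exp (-1 : ℤ) ∧
        val83 w₁ (elt83 ω a b) = WithZero.exp (-1 : ℤ) ∧
        val83 w₂ (elt83 ω a b) = 1

/-- **INERT.**  At a place `v ∤ (t² - 4n)` with only one place `w` over it: the norm form does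
not take the valuation of a uniformiser on `𝒪_v²`, and `w` is unramified over `v`. -/
def InertC83 : Prop :=
  ∀ (K L : Type) [Field K] [NumberField K] [Field L] [NumberField L] [Algebra K L]
    (t n : K) (ω : L), Module.finrank K L = 2 → IsGen83 K L t n ω →
    ∀ (v : HeightOneSpectrum (𝓞 K)) (w : HeightOneSpectrum (𝓞 L)), LiesOverPl K w v →
      (∀ w' : HeightOneSpectrum (𝓞 L), LiesOverPl K w' v → w' = w) →
      val83 v (t ^ 2 - 4 * n) = 1 →
      (∀ x y : v.adicCompletion K, Valued.v x ≤ 1 → Valued.v y ≤ 1 →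
        Valued.v (x ^ 2 + algebraMap K (v.adicCompletion K) t * x * y
            + algebraMap K (v.adicCompletion K) n * y ^ 2) ≠ WithZero.exp (-1 : ℤ)) ∧
      ∃ ϖ : K, val83 v ϖ = WithZero.exp (-1 : ℤ) ∧
        val83 w (algebraMap K L ϖ) = WithZero.exp (-1 : ℤ)

end Leaves

end Fermat.Agent.LT.A2.H83

end
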